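/-
Programme TW (S56), WP5 (local at `q ≠ p`), brick C (helper96).

**`G_ℚ` acts transitively on the valuation subrings of `ℚ̄` over a prime `q`**
(`exists_smul_eq_of_liesOverPrime`), from Mathlib's
`Algebra.IsInvariant.exists_smul_of_under_eq_of_profinite` applied to the ring of all algebraic
integers (set up in `Lib/FrobeniusExists`).

Consequences: inertia groups at two places over `q` are conjugate
(`exists_conj_mem_inertia`), so a residual representation that is ramified at `q` in the
Prelude's sense (`¬ ρbar.IsUnramifiedAt q`) is nontrivial on the inertia group of EVERY place over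
`q` (`exists_mem_inertia_ne_one`).
-/
import Mathlib
import Fermat.Agent.Lib.FrobeniusExists
import Fermat.Agent.S05.Inertia
import Fermat.Agent.S13.UnramVal
import Fermat.Prelude.Def_GaloisRep_Residual

set_option autoImplicit false
set_option linter.style.haveILetI false

open scoped Pointwise

namespace Fermat.Agent.TW.LocalQ.PlaceConj96

open Fermat.Agent.Lib.FrobeniusExists

attribute [local instance] isGalois_Qbar isIntegral_Qbar

local instance instTopZbar96 : TopologicalSpace Zbar := ⊥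

local instance : DiscreteTopology Zbar := ⟨rfl⟩

attribute [local instance] continuousSMul_Zbar isInvariant_Zbar

/-- The prime of `Zbar` cut out by a valuation subring. -/
noncomputable def primeOfPlace (V : ValuationSubring Qbar) : Ideal Zbar :=
  Ideal.comap ((algebraMap Zbar Qbar).codRestrict V.toSubring
    (fun b => mem_valuationSubring_of_isIntegral V b.2)) (IsLocalRing.maximalIdeal V)

theorem mem_primeOfPlace_iff (V : ValuationSubring Qbar) (b : Zbar) :
    b ∈ primeOfPlace V ↔ (b : Qbar) ∈ V.nonunits := by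
  rw [primeOfPlace, Ideal.mem_comap, ← ValuationSubring.coe_mem_nonunits_iff]
  rfl

instance (V : ValuationSubring Qbar) : (primeOfPlace V).IsPrime :=
  Ideal.comap_isPrime _ _

theorem under_primeOfPlace (V : ValuationSubring Qbar) {q : ℕ} (hq : q.Prime)
    (hV : V.LiesOverPrime q) : (primeOfPlace V).under ℤ = Ideal.span {(q : ℤ)} := by
  have hPmax : (Ideal.span {(q : ℤ)}).IsMaximal := by
    haveI : Fact q.Prime := ⟨hq⟩
    exact Int.ideal_span_isMaximal_of_prime q
  symm
  refine hPmax.eq_of_le (Ideal.IsPrime.under ℤ (primeOfPlace V)).ne_top ?_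
  rw [Ideal.span_le]
  intro z hz
  rw [Set.mem_singleton_iff] at hz
  subst hz
  change algebraMap ℤ Zbar (q : ℤ) ∈ primeOfPlace V
  rw [mem_primeOfPlace_iff]
  have hV' : (q : Qbar) ∈ V.nonunits := hV
  simpa using hV'

/-- If `τ` maps the complement of the prime of `V` into the complement of the prime of `W`, it
maps `V` into `W`. -/
theorem apply_mem_of_smul_prime {V W : ValuationSubring Qbar} {q : ℕ} (hq : q.Prime)
    (hV : V.LiesOverPrime q) {τ : GQ}
    (hτ : ∀ b : Zbar, τ • b ∈ primeOfPlace W → b ∈ primeOfPlace V) {x : Qbar}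
    (hx : x ∈ V) : τ x ∈ W := by
  have hZW : ∀ b : Zbar, (b : Qbar) ∈ W := fun b => mem_valuationSubring_of_isIntegral W b.2
  obtain ⟨b, c, hb, hc, hbV, hxb⟩ := exists_num_den V q hq hV hx
  let b' : Zbar := ⟨b, hb⟩
  let c' : Zbar := ⟨c, hc⟩
  have hb'Q : b' ∉ primeOfPlace V := fun h => hbV ((mem_primeOfPlace_iff V b').mp h)
  have hτb : τ • b' ∉ primeOfPlace W := fun h => hb'Q (hτ b' h)
  have hτbW : τ b ∉ W.nonunits := fun h => hτb ((mem_primeOfPlace_iff W (τ • b')).mpr h)
  have hτb_mem : τ b ∈ W := hZW (τ • b')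
  have hτc_mem : τ c ∈ W := hZW (τ • c')
  have hv1 : W.valuation (τ b) = 1 :=
    le_antisymm ((W.valuation_le_one_iff _).mpr hτb_mem) (not_lt.mp hτbW)
  have hτb0 : τ b ≠ 0 := by
    intro h0
    rw [h0, map_zero] at hv1
    exact zero_ne_one hv1
  have hinv : (τ b)⁻¹ ∈ W := by
    rw [← W.valuation_le_one_iff, map_inv₀, hv1, inv_one]
  have hx' : τ x = τ c * (τ b)⁻¹ := by
    rw [← hxb, map_mul]
    field_simp
  rw [hx']
  exact mul_mem hτc_mem hinv

/-- **Transitivity of `G_ℚ` on the places of `ℚ̄` over `q`.** -/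
theorem exists_smul_eq_of_liesOverPrime {V W : ValuationSubring Qbar} {q : ℕ} (hq : q.Prime)
    (hV : V.LiesOverPrime q) (hW : W.LiesOverPrime q) : ∃ g : GQ, g • V = W := by
  obtain ⟨g, hg⟩ := Algebra.IsInvariant.exists_smul_of_under_eq_of_profinite (A := ℤ) (G := GQ)
    (primeOfPlace V) (primeOfPlace W)
    (by rw [under_primeOfPlace V hq hV, under_primeOfPlace W hq hW])
  refine ⟨g, ?_⟩
  apply SetLike.ext
  intro x
  rw [ValuationSubring.mem_pointwise_smul_iff_inv_smul_mem]
  constructor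
  · intro h
    have := apply_mem_of_smul_prime (W := W) hq hV (τ := g) (fun b hb => by
      rw [hg] at hb
      exact Ideal.smul_mem_pointwise_smul_iff.mp hb) h
    simpa using this
  · intro h
    exact apply_mem_of_smul_prime (W := V) hq hW (τ := g⁻¹) (fun b hb => by
      rw [hg, Ideal.mem_pointwise_smul_iff_inv_smul_mem]
      exact hb) h

/-- Membership in the nonunits of a translated valuation subring. -/
theorem mem_smul_nonunits_iff (g : GQ) (V : ValuationSubring Qbar) (x : Qbar) :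
    x ∈ (g • V).nonunits ↔ g⁻¹ x ∈ V.nonunits := by
  rw [ValuationSubring.mem_nonunits_iff_or, ValuationSubring.mem_nonunits_iff_or,
    ValuationSubring.mem_pointwise_smul_iff_inv_smul_mem, AlgEquiv.smul_def, map_inv₀]
  have : g⁻¹ x = 0 ↔ x = 0 := by
    constructor
    · intro h
      have := congrArg g h
      rwa [map_zero, ← AlgEquiv.mul_apply, mul_inv_cancel, AlgEquiv.one_apply] at this
    · rintro rfl; exact map_zero _
  rw [this]

theorem liesOverPrime_smul (g : GQ) {V : ValuationSubring Qbar} {q : ℕ}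
    (hV : V.LiesOverPrime q) : (g • V).LiesOverPrime q := by
  rw [ValuationSubring.LiesOverPrime, mem_smul_nonunits_iff, map_natCast]
  exact hV

/-- Conjugation transports inertia subgroups. -/
theorem conj_mem_inertiaSubgroupIn {V : ValuationSubring Qbar} {q : ℕ} (hq : q.Prime)
    (hV : V.LiesOverPrime q) (g : GQ) {σ : GQ}
    (hσ : σ ∈ V.inertiaSubgroupIn ℚ) : g * σ * g⁻¹ ∈ (g • V).inertiaSubgroupIn ℚ := by
  apply Fermat.Agent.S13.UnramVal.mem_inertiaSubgroupIn_qbar (g • V) hq (liesOverPrime_smul g hV)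
  intro x hx
  rw [mem_smul_nonunits_iff]
  have h1 : g⁻¹ x ∈ V :=
    mem_valuationSubring_of_isIntegral V (map_isIntegral_int (g⁻¹ : GQ) hx)
  have h2 := Fermat.Agent.S05.Inertia.apply_sub_mem_nonunits hσ h1
  have h3 : g⁻¹ ((g * σ * g⁻¹) x - x) = σ (g⁻¹ x) - g⁻¹ x := by
    rw [map_sub, AlgEquiv.mul_apply, AlgEquiv.mul_apply, ← AlgEquiv.mul_apply g⁻¹ g,
      inv_mul_cancel, AlgEquiv.one_apply]
  rw [h3]; exact h2

/-- Inertia groups at two places over `q` are conjugate. -/
theorem exists_conj_mem_inertia {V W : ValuationSubring Qbar} {q : ℕ} (hq : q.Prime)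
    (hV : V.LiesOverPrime q) (hW : W.LiesOverPrime q) :
    ∃ g : GQ, ∀ σ ∈ V.inertiaSubgroupIn ℚ, g * σ * g⁻¹ ∈ W.inertiaSubgroupIn ℚ := by
  obtain ⟨g, rfl⟩ := exists_smul_eq_of_liesOverPrime hq hV hW
  exact ⟨g, fun σ hσ => conj_mem_inertiaSubgroupIn hq hV g hσ⟩

/-- A residual representation ramified at `q` is nontrivial on the inertia group of every place
over `q`. -/
theorem exists_mem_inertia_ne_one {k : Type} [Field k] (ρbar : ResidualGaloisRep k) {q : ℕ}
    (hq : q.Prime) (hram : ¬ ρbar.IsUnramifiedAt q) {W : ValuationSubring Qbar}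
    (hW : W.LiesOverPrime q) : ∃ σ ∈ W.inertiaSubgroupIn ℚ, ρbar.ρ σ ≠ 1 := by
  rw [ResidualGaloisRep.IsUnramifiedAt] at hram
  push Not at hram
  obtain ⟨V, hV, σ, hσ, hne⟩ := hram
  obtain ⟨g, hg⟩ := exists_conj_mem_inertia hq hV hW
  refine ⟨g * σ * g⁻¹, hg σ hσ, ?_⟩
  intro h
  apply hne
  rw [map_mul, map_mul] at h
  have h1 : ρbar.ρ g⁻¹ * ρbar.ρ g = 1 := by rw [← map_mul, inv_mul_cancel, map_one]
  calc ρbar.ρ σ = (ρbar.ρ g⁻¹ * ρbar.ρ g) * ρbar.ρ σ * (ρbar.ρ g⁻¹ * ρbar.ρ g) := by
        rw [h1, one_mul, mul_one]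
    _ = ρbar.ρ g⁻¹ * (ρbar.ρ g * ρbar.ρ σ * ρbar.ρ g⁻¹) * ρbar.ρ g := by
        simp only [mul_assoc]
    _ = 1 := by rw [h, mul_one, h1]

end Fermat.Agent.TW.LocalQ.PlaceConj96
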