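/-
Programme TW (S56), brick (T) PLACE-TRANS, corollaries (helper96).  On top of `PlaceConj96`
(`G_ℚ` acts transitively on the places of `ℚ̄` over a prime `q`):

* `isFrobeniusAt_iff`           : valuation form of `IsFrobeniusAt` (`σ ∈ D_V`, `σ x ≡ x^q mod 𝔪_V`);
* `conj_mem_decompositionSubgroup`, `isFrobeniusAt_conj` : `D_{gV} = g D_V g⁻¹` and conjugates of
  Frobenius elements are Frobenius elements at the conjugate place;
* `exists_isFrobeniusAt_conj`   : Frobenius elements at two places over `q` are conjugate up to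
  inertia; precisely, for `V, W` over `q` there is `g` with `g • V = W` and `g φ g⁻¹` Frobenius at `W`;
* `charpoly_eq_of_isFrobeniusAt`: for `ρbar` unramified at `q`, all Frobenius elements at all places
  over `q` have the same characteristic polynomial;
* `distinctFrobEigenvalues_of_one` : `Contract52.DistinctFrobEigenvalues ρbar q` from ONE Frobenius at
  ONE place;
* `exists_smul_primeLocalPlace` : every place over `q` is `g • primeLocalPlace q`.
-/
import Mathlib
import Fermat.Agent.TW.Spec.Contract52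
import Fermat.Agent.TW.OrdLocal.PadicPlace97
import Fermat.Agent.ES.FROB.FrobFacts12
import Fermat.Agent.TW.LocalQ.PlaceConj96

set_option autoImplicit false

open scoped Pointwise
open Polynomial

namespace Fermat.Agent.TW.LocalQ.FrobConj96

open Fermat.Agent.TW.LocalQ.PlaceConj96

local notation "Qbar" => AlgebraicClosure ℚ
local notation "GQ" => (AlgebraicClosure ℚ ≃ₐ[ℚ] AlgebraicClosure ℚ)

/-! ### Valuation form of `IsFrobeniusAt` -/

section ValForm

variable {V : ValuationSubring Qbar} {q : ℕ}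

theorem sub_pow_mem_nonunits_of_isFrobeniusAt {φ : GQ} (h : V.IsFrobeniusAt φ q) {x : Qbar}
    (hx : x ∈ V) : φ x - x ^ q ∈ V.nonunits := by
  have h1 := h.smul_residue_eq (IsLocalRing.residue V ⟨x, hx⟩)
  rw [← IsLocalRing.ResidueField.residue_smul, ← map_pow, ← sub_eq_zero, ← map_sub,
    IsLocalRing.residue_eq_zero_iff, ← ValuationSubring.coe_mem_nonunits_iff] at h1
  exact h1

theorem isFrobeniusAt_of_sub_pow_mem_nonunits {φ : GQ} (hφ : φ ∈ V.decompositionSubgroup ℚ)
    (h : ∀ x : Qbar, x ∈ V → φ x - x ^ q ∈ V.nonunits) : V.IsFrobeniusAt φ q := by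
  refine ⟨hφ, fun y => ?_⟩
  obtain ⟨a, rfl⟩ := IsLocalRing.residue_surjective y
  rw [← IsLocalRing.ResidueField.residue_smul, ← map_pow, ← sub_eq_zero, ← map_sub,
    IsLocalRing.residue_eq_zero_iff, ← ValuationSubring.coe_mem_nonunits_iff]
  exact h a.1 a.2

theorem isFrobeniusAt_iff {φ : GQ} : V.IsFrobeniusAt φ q ↔
    φ ∈ V.decompositionSubgroup ℚ ∧ ∀ x : Qbar, x ∈ V → φ x - x ^ q ∈ V.nonunits :=
  ⟨fun h => ⟨h.mem_decompositionSubgroup, fun _ hx => sub_pow_mem_nonunits_of_isFrobeniusAt h hx⟩,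
    fun h => isFrobeniusAt_of_sub_pow_mem_nonunits h.1 h.2⟩

end ValForm

/-! ### Conjugation -/

section Conj

variable {V W : ValuationSubring Qbar} {q : ℕ}

theorem conj_mem_decompositionSubgroup (g : GQ) {σ : GQ} (hσ : σ ∈ V.decompositionSubgroup ℚ) :
    g * σ * g⁻¹ ∈ (g • V).decompositionSubgroup ℚ := by
  have h : σ • V = V := hσ
  show (g * σ * g⁻¹) • (g • V) = g • V
  rw [mul_smul, mul_smul, inv_smul_smul, h]

theorem mem_decompositionSubgroup_smul_iff (g : GQ) {σ : GQ} :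
    σ ∈ (g • V).decompositionSubgroup ℚ ↔ g⁻¹ * σ * g ∈ V.decompositionSubgroup ℚ := by
  constructor
  · intro h
    have := conj_mem_decompositionSubgroup g⁻¹ h
    rwa [inv_smul_smul, inv_inv] at this
  · intro h
    have := conj_mem_decompositionSubgroup g h
    have e : g * (g⁻¹ * σ * g) * g⁻¹ = σ := by group
    rwa [e] at this

/-- Conjugates of Frobenius elements are Frobenius elements at the conjugate place. -/
theorem isFrobeniusAt_conj (g : GQ) {φ : GQ} (h : V.IsFrobeniusAt φ q) :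
    (g • V).IsFrobeniusAt (g * φ * g⁻¹) q := by
  rw [isFrobeniusAt_iff] at h ⊢
  refine ⟨conj_mem_decompositionSubgroup g h.1, fun x hx => ?_⟩
  rw [mem_smul_nonunits_iff]
  have hx' : g⁻¹ x ∈ V := by
    rwa [ValuationSubring.mem_pointwise_smul_iff_inv_smul_mem] at hx
  have := h.2 (g⁻¹ x) hx'
  have e : g⁻¹ ((g * φ * g⁻¹) x - x ^ q) = φ (g⁻¹ x) - (g⁻¹ x) ^ q := by
    rw [map_sub, map_pow, AlgEquiv.mul_apply, AlgEquiv.mul_apply]
    congr 1
    exact AlgEquiv.symm_apply_apply g _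
  rw [e]
  exact this

theorem mem_inertiaSubgroupIn_smul_iff (hq : q.Prime) (hV : V.LiesOverPrime q) (g : GQ) {σ : GQ} :
    σ ∈ (g • V).inertiaSubgroupIn ℚ ↔ g⁻¹ * σ * g ∈ V.inertiaSubgroupIn ℚ := by
  constructor
  · intro h
    have := conj_mem_inertiaSubgroupIn hq (liesOverPrime_smul g hV) g⁻¹ h
    rwa [inv_smul_smul, inv_inv] at this
  · intro h
    have := conj_mem_inertiaSubgroupIn hq hV g h
    have e : g * (g⁻¹ * σ * g) * g⁻¹ = σ := by group
    rwa [e] at this

/-- Frobenius elements at two places over `q` are conjugate (up to inertia). -/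
theorem exists_isFrobeniusAt_conj (hq : q.Prime) (hV : V.LiesOverPrime q)
    (hW : W.LiesOverPrime q) {φ : GQ} (h : V.IsFrobeniusAt φ q) :
    ∃ g : GQ, g • V = W ∧ W.IsFrobeniusAt (g * φ * g⁻¹) q := by
  obtain ⟨g, rfl⟩ := exists_smul_eq_of_liesOverPrime hq hV hW
  exact ⟨g, rfl, isFrobeniusAt_conj g h⟩

end Conj

/-! ### Characteristic polynomials of Frobenius for an unramified residual representation -/

section Charpoly

variable {k : Type} [Field k] (ρbar : ResidualGaloisRep k) {q : ℕ}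

theorem ρ_inv_mul (g : GQ) : ρbar.ρ g⁻¹ * ρbar.ρ g = 1 := by
  rw [← map_mul, inv_mul_cancel, map_one]

theorem ρ_mul_inv (g : GQ) : ρbar.ρ g * ρbar.ρ g⁻¹ = 1 := by
  rw [← map_mul, mul_inv_cancel, map_one]

/-- `ρbar g` as a linear equivalence. -/
noncomputable def ρEquiv (g : GQ) : ρbar.V ≃ₗ[k] ρbar.V :=
  LinearEquiv.ofLinearMap (ρbar.ρ g) (ρbar.ρ g⁻¹) (ρ_mul_inv ρbar g) (ρ_inv_mul ρbar g)

theorem charpoly_conj (g σ : GQ) :
    LinearMap.charpoly (ρbar.ρ (g * σ * g⁻¹)) = LinearMap.charpoly (ρbar.ρ σ) := by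
  have h : ρbar.ρ (g * σ * g⁻¹) = (ρEquiv ρbar g).conj (ρbar.ρ σ) := by
    rw [map_mul, map_mul]
    rfl
  rw [h, LinearEquiv.charpoly_conj]

/-- For `ρbar` unramified at `q`, all Frobenius elements over `q` have the same characteristic
polynomial. -/
theorem charpoly_eq_of_isFrobeniusAt (hq : q.Prime) (hur : ρbar.IsUnramifiedAt q)
    {V W : ValuationSubring Qbar} (hV : V.LiesOverPrime q) (hW : W.LiesOverPrime q) {φ ψ : GQ}
    (hφ : V.IsFrobeniusAt φ q) (hψ : W.IsFrobeniusAt ψ q) :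
    LinearMap.charpoly (ρbar.ρ ψ) = LinearMap.charpoly (ρbar.ρ φ) := by
  obtain ⟨g, -, hg⟩ := exists_isFrobeniusAt_conj hq hV hW hφ
  have hI := Fermat.Agent.ES.FROB.FrobFacts12.mul_inv_mem_inertiaSubgroupIn W hg hψ
  have h1 : ρbar.ρ (ψ * (g * φ * g⁻¹)⁻¹) = 1 := hur W hW _ hI
  have h2 : ρbar.ρ ψ = ρbar.ρ (g * φ * g⁻¹) := by
    have e : ψ = ψ * (g * φ * g⁻¹)⁻¹ * (g * φ * g⁻¹) := by group
    rw [e, map_mul, h1, one_mul]
  rw [h2, charpoly_conj]

open Fermat.Agent.TW.Spec.Contract52 in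
/-- `DistinctFrobEigenvalues` from ONE Frobenius element at ONE place over `q`. -/
theorem distinctFrobEigenvalues_of_one (hq : q.Prime) (hur : ρbar.IsUnramifiedAt q)
    {V : ValuationSubring Qbar} (hV : V.LiesOverPrime q) {φ : GQ} (hφ : V.IsFrobeniusAt φ q)
    {α β : k} (hαβ : α ≠ β)
    (hchar : LinearMap.charpoly (ρbar.ρ φ) = (X - C α) * (X - C β)) :
    DistinctFrobEigenvalues ρbar q := by
  intro P hP ψ hψ
  exact ⟨α, β, hαβ, (charpoly_eq_of_isFrobeniusAt ρbar hq hur hV hP hφ hψ).trans hchar⟩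

end Charpoly

/-! ### The distinguished place -/

theorem exists_smul_primeLocalPlace (q : Nat.Primes) {A : ValuationSubring Qbar}
    (hA : A.LiesOverPrime (q : ℕ)) : ∃ g : GQ, g • ExtCitation.primeLocalPlace q = A :=
  exists_smul_eq_of_liesOverPrime q.2
    (Fermat.Agent.TW.OrdLocal.PadicPlace97.primeLocalPlace_liesOverPrime q) hA

end Fermat.Agent.TW.LocalQ.FrobConj96
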