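/-
Programme TW (S56), WP5 (local at `q ≠ p`), brick Q1 (helper96).

**Tame structure of inertia images.**  `A` a valuation subring of `ℚ̄` over the prime `q`,
`I = A.inertiaSubgroupIn ℚ`, `K ⊂ ℚ̄` a finite normal extension of `ℚ`.  Then modulo the fixing
subgroup of `K` the group `I` is (`q`-group) ⋊ (cyclic):

* `IsUnif A K π` : `π ∈ K` generates the value group of `A ∩ K`; `exists_isUnif`.
* `pow_mem_fixingSubgroup_of_wild` : if `σ ∈ I` and `v(σ π - π) < v(π)` ("wild") then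
  `σ ^ q ^ a` fixes `K` for some `a`.
* `tameChar` : the tame character `I → κ(A)ˣ`, `σ ↦ σ π / π`; `exists_tame_generator`.
* `exists_generator_of_pGroup_image` : if `f : G_ℚ → Φ` is trivial on the fixing subgroup of a
  number field and `f(I)` consists of elements of `p`-power order, `p ≠ q`, then `f(I)` is cyclic:
  there is `σ₀ ∈ I` with `f σ ∈ ⟨f σ₀⟩` for all `σ ∈ I`.
-/
import Mathlib
import Fermat.Agent.S05.Inertia
import Fermat.Agent.RED.DESC.NumberFieldDVR27

set_option autoImplicit false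
set_option linter.style.haveILetI false

namespace Fermat.Agent.TW.LocalQ.TameImage96

open Fermat.Agent.S05.Inertia
open Fermat.Agent.RED.Interface4 Fermat.Agent.RED.DESC.NumberFieldDVR27

local notation "Qb" => AlgebraicClosure ℚ
local notation "GQ" => (AlgebraicClosure ℚ ≃ₐ[ℚ] AlgebraicClosure ℚ)

variable {A : ValuationSubring Qb} {q : ℕ}

/-- `π ∈ K` is a uniformizer of the discrete valuation ring `A ∩ K`, expressed in `ℚ̄`. -/
structure IsUnif (A : ValuationSubring Qb) (K : IntermediateField ℚ Qb) (π : Qb) : Prop where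
  mem : π ∈ K
  lt_one : A.valuation π < 1
  ne_zero : π ≠ 0
  exists_zpow : ∀ x ∈ K, x ≠ 0 → ∃ n : ℤ, A.valuation x = A.valuation π ^ n

section Unif

variable (K : IntermediateField ℚ Qb)

theorem valuation_unit_AK {u : AK A K} (hu : IsUnit u) : A.valuation ((u : K) : Qb) = 1 := by
  obtain ⟨w, hw⟩ := isUnit_iff_exists_inv.mp hu
  have h1 : ((u : K) : Qb) * ((w : K) : Qb) = 1 := by
    have := congrArg (fun z : AK A K => ((z : K) : Qb)) hw
    simpa using this
  have hu1 : A.valuation ((u : K) : Qb) ≤ 1 :=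
    (A.valuation_le_one_iff _).mpr ((mem_AK_iff A K _).mp u.2)
  have hw1 : A.valuation ((w : K) : Qb) ≤ 1 :=
    (A.valuation_le_one_iff _).mpr ((mem_AK_iff A K _).mp w.2)
  have h2 : A.valuation ((u : K) : Qb) * A.valuation ((w : K) : Qb) = 1 := by
    rw [← map_mul, h1, map_one]
  refine le_antisymm hu1 ?_
  calc (1 : A.ValueGroup) = A.valuation ((u : K) : Qb) * A.valuation ((w : K) : Qb) := h2.symm
    _ ≤ A.valuation ((u : K) : Qb) * 1 := by gcongr
    _ = A.valuation ((u : K) : Qb) := mul_one _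

theorem exists_isUnif [FiniteDimensional ℚ K] (hq : q.Prime) (hA : A.LiesOverPrime q) :
    ∃ π : Qb, IsUnif A K π := by
  have hdvr : IsDiscreteValuationRing (AK A K) := isDiscreteValuationRing_AK A K hq.ne_zero hA
  obtain ⟨ϖ, hϖ⟩ := IsDiscreteValuationRing.exists_irreducible (AK A K)
  have hϖ0 : ϖ ≠ 0 := hϖ.ne_zero
  have hϖ0' : ((ϖ : K) : Qb) ≠ 0 := by
    intro h
    apply hϖ0
    apply Subtype.ext
    apply Subtype.ext
    simpa using h
  have key : ∀ x : AK A K, x ≠ 0 →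
      ∃ n : ℕ, A.valuation ((x : K) : Qb) = A.valuation ((ϖ : K) : Qb) ^ n := by
    intro x hx
    obtain ⟨n, u, hu⟩ := IsDiscreteValuationRing.eq_unit_mul_pow_irreducible hx hϖ
    refine ⟨n, ?_⟩
    have h1 : ((x : K) : Qb) = (((u : AK A K) : K) : Qb) * ((ϖ : K) : Qb) ^ n := by
      have := congrArg (fun z : AK A K => ((z : K) : Qb)) hu
      simpa using this
    rw [h1, map_mul, map_pow, valuation_unit_AK K u.isUnit, one_mul]
  refine ⟨((ϖ : K) : Qb), (ϖ : K).2, ?_, hϖ0', ?_⟩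
  · have h1 : ϖ ∈ IsLocalRing.maximalIdeal (AK A K) := by
      rw [IsLocalRing.mem_maximalIdeal, mem_nonunits_iff]
      exact hϖ.not_isUnit
    rw [mem_maximalIdeal_iff] at h1
    have h2 : ((incl A K ϖ : A) : Qb) ∈ A.nonunits :=
      ValuationSubring.mem_nonunits_iff_exists_mem_maximalIdeal.mpr ⟨_, h1⟩
    rw [coe_incl] at h2
    exact (ValuationSubring.mem_nonunits_iff (A := A)).mp h2
  · intro x hxK hx0
    let xK : K := ⟨x, hxK⟩
    have hxK0 : xK ≠ 0 := by
      intro h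
      apply hx0
      have := congrArg (fun z : K => (z : Qb)) h
      simpa [xK] using this
    rcases (AK A K).mem_or_inv_mem xK with h | h
    · obtain ⟨n, hn⟩ := key ⟨xK, h⟩ (by
        intro h0
        apply hxK0
        exact congrArg Subtype.val h0)
      exact ⟨n, by simpa [xK] using hn⟩
    · obtain ⟨n, hn⟩ := key ⟨xK⁻¹, h⟩ (by
        intro h0
        apply inv_ne_zero hxK0
        exact congrArg Subtype.val h0)
      refine ⟨-n, ?_⟩
      have h2 : (((xK⁻¹ : K)) : Qb) = x⁻¹ := by simp [xK]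
      have h3 : A.valuation x⁻¹ = A.valuation ((ϖ : K) : Qb) ^ n := by
        rw [← h2]; exact hn
      rw [map_inv₀] at h3
      rw [zpow_neg, zpow_natCast, ← h3, inv_inv]

end Unif

section Consequences

variable {K : IntermediateField ℚ Qb} {π : Qb}

theorem IsUnif.valuation_pos (hπ : IsUnif A K π) : 0 < A.valuation π := by
  rw [Valuation.pos_iff]; exact hπ.ne_zero

/-- Elements of `𝔪_A ∩ K` are divisible by the uniformizer. -/
theorem IsUnif.le_of_lt_one (hπ : IsUnif A K π) {x : Qb} (hx : x ∈ K) (hx1 : A.valuation x < 1) :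
    A.valuation x ≤ A.valuation π := by
  by_cases hx0 : x = 0
  · rw [hx0, map_zero]; exact zero_le
  obtain ⟨n, hn⟩ := hπ.exists_zpow x hx hx0
  have hpos := hπ.valuation_pos
  rw [hn] at hx1 ⊢
  have hn1 : 1 ≤ n := by
    by_contra hcon
    have hn0 : n ≤ 0 := by omega
    have : (1 : A.ValueGroup) ≤ A.valuation π ^ n :=
      one_le_zpow_of_nonpos₀ hpos hπ.lt_one.le hn0
    exact absurd hx1 (not_lt.mpr this)
  calc A.valuation π ^ n ≤ A.valuation π ^ (1 : ℤ) :=
        zpow_le_zpow_right_of_le_one₀ hpos hπ.lt_one.le hn1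
    _ = A.valuation π := zpow_one _

/-- The powers of the uniformizer tend to `0` on `K`. -/
theorem IsUnif.exists_pow_lt (hπ : IsUnif A K π) {x : Qb} (hx : x ∈ K) (hx0 : x ≠ 0) :
    ∃ n : ℕ, A.valuation π ^ n < A.valuation x := by
  obtain ⟨m, hm⟩ := hπ.exists_zpow x hx hx0
  have hpos := hπ.valuation_pos
  refine ⟨(m + 1).toNat, ?_⟩
  rw [hm, ← zpow_natCast]
  apply zpow_lt_zpow_right_of_lt_one₀ hpos hπ.lt_one
  have := Int.self_le_toNat (m + 1)
  omega

end Consequences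

section Wild

variable {K : IntermediateField ℚ Qb} {π : Qb}

theorem apply_mem_of_normal [Normal ℚ K] (σ : GQ) {x : Qb} (hx : x ∈ K) : σ x ∈ K := by
  have h := AlgEquiv.restrictNormal_commutes σ K ⟨x, hx⟩
  have h2 : σ x = ((σ.restrictNormal K ⟨x, hx⟩ : K) : Qb) := h.symm
  rw [h2]
  exact (σ.restrictNormal K ⟨x, hx⟩).2

theorem pow_apply_mem_of_normal [Normal ℚ K] (σ : GQ) (j : ℕ) {x : Qb} (hx : x ∈ K) :
    (σ ^ j) x ∈ K := apply_mem_of_normal (σ ^ j) hx

/-- Wildness propagates to powers. -/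
theorem wild_pow {σ : GQ} (hσ : σ ∈ A.inertiaSubgroupIn ℚ)
    (hw : A.valuation (σ π - π) < A.valuation π) (j : ℕ) :
    A.valuation ((σ ^ j) π - π) < A.valuation π := by
  have hpos : 0 < A.valuation π := lt_of_le_of_lt zero_le hw
  induction j with
  | zero => simpa using hpos
  | succ j ih =>
    have e : (σ ^ (j + 1)) π - π = σ ((σ ^ j) π - π) + (σ π - π) := by
      rw [pow_succ', AlgEquiv.mul_apply, map_sub]; ring
    rw [e]
    apply Valuation.map_add_lt
    · rw [valuation_apply hσ]; exact ih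
    · exact hw

/-- If `τ` is wild and `τ ^ m` fixes `K` with `q ∤ m`, the orbit sum of `π` is a `τ`-fixed
uniformizer. -/
theorem exists_fixed_unif [Normal ℚ K] (hq : q.Prime) (hA : A.LiesOverPrime q)
    (hπ : IsUnif A K π) {τ : GQ} (hτ : τ ∈ A.inertiaSubgroupIn ℚ)
    (hw : A.valuation (τ π - π) < A.valuation π) {m : ℕ} (hm : ¬ q ∣ m)
    (hτm : τ ^ m ∈ K.fixingSubgroup) :
    ∃ π' : Qb, π' ∈ K ∧ τ π' = π' ∧ A.valuation π' = A.valuation π := by
  have hpos := hπ.valuation_pos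
  refine ⟨∑ j ∈ Finset.range m, (τ ^ j) π, ?_, ?_, ?_⟩
  · exact sum_mem fun j _ => pow_apply_mem_of_normal τ j hπ.mem
  · rw [map_sum]
    have h1 : ∀ j, τ ((τ ^ j) π) = (τ ^ (j + 1)) π := by
      intro j; rw [pow_succ', AlgEquiv.mul_apply]
    simp only [h1]
    have h2 := Finset.sum_range_succ' (fun j => (τ ^ j) π) m
    have h3 := Finset.sum_range_succ (fun j => (τ ^ j) π) m
    have h4 : (τ ^ m) π = π := (IntermediateField.mem_fixingSubgroup_iff _ _).mp hτm π hπ.mem
    simp only [pow_zero, AlgEquiv.one_apply, h4] at h2 h3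
    rw [h3] at h2
    exact add_right_cancel h2.symm
  · have e : ∑ j ∈ Finset.range m, (τ ^ j) π
        = (m : Qb) * π + ∑ j ∈ Finset.range m, ((τ ^ j) π - π) := by
      rw [Finset.sum_sub_distrib, Finset.sum_const, Finset.card_range, nsmul_eq_mul]; ring
    have hm1 : A.valuation (m : Qb) = 1 := valuation_natCast_eq_one hq hA hm
    have h1 : A.valuation ((m : Qb) * π) = A.valuation π := by rw [map_mul, hm1, one_mul]
    have h2 : A.valuation (∑ j ∈ Finset.range m, ((τ ^ j) π - π)) < A.valuation ((m : Qb) * π) := by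
      rw [h1]
      exact Valuation.map_sum_lt _ hpos.ne' fun j _ => wild_pow hτ hw j
    rw [e, Valuation.map_add_eq_of_lt_left _ h2, h1]

/-- Key induction: a wild element of order prime to `q` on `K` is congruent to the identity modulo
every power of the uniformizer. -/
theorem valuation_sub_le_pow [Normal ℚ K] (hq : q.Prime) (hA : A.LiesOverPrime q)
    (hπ : IsUnif A K π) {τ : GQ} (hτ : τ ∈ A.inertiaSubgroupIn ℚ)
    {π' : Qb} (hπ'K : π' ∈ K) (hπ'fix : τ π' = π') (hπ'v : A.valuation π' = A.valuation π)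
    {m : ℕ} (hm : ¬ q ∣ m) (hτm : τ ^ m ∈ K.fixingSubgroup) (n : ℕ) :
    ∀ x ∈ K, A.valuation x ≤ 1 → A.valuation (τ x - x) ≤ A.valuation π ^ n := by
  have hpos := hπ.valuation_pos
  have hπ'0 : π' ≠ 0 := by
    intro h
    rw [h, map_zero] at hπ'v
    exact hpos.ne hπ'v
  induction n with
  | zero =>
    intro x _ hx1
    rw [pow_zero]
    refine le_trans (Valuation.map_sub _ _ _) (max_le ?_ hx1)
    rw [valuation_apply hτ]; exact hx1
  | succ n ih =>
    intro x hxK hx1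
    set y := τ x - x with hy
    have hyK : y ∈ K := sub_mem (apply_mem_of_normal τ hxK) hxK
    have hyv : A.valuation y ≤ A.valuation π ^ n := ih x hxK hx1
    -- Sub-claim A
    have hA1 : A.valuation (τ y - y) ≤ A.valuation π ^ (n + 1) := by
      set z := y / π' ^ n with hz
      have hzK : z ∈ K := div_mem hyK (pow_mem hπ'K n)
      have hzv : A.valuation z ≤ 1 := by
        rw [hz, map_div₀, map_pow, hπ'v]
        exact div_le_one_of_le₀ hyv zero_le
      have h1 : A.valuation (τ z - z) < 1 := valuation_sub_lt_one hτ hzv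
      have h2 : A.valuation (τ z - z) ≤ A.valuation π :=
        hπ.le_of_lt_one (sub_mem (apply_mem_of_normal τ hzK) hzK) h1
      have h3 : τ y - y = π' ^ n * (τ z - z) := by
        have hyz : y = π' ^ n * z := by
          rw [hz]; field_simp
        have : τ y = π' ^ n * τ z := by
          conv_lhs => rw [hyz]
          rw [map_mul, map_pow, hπ'fix]
        rw [this]; conv_lhs => rw [hyz]
        ring
      rw [h3, map_mul, map_pow, hπ'v, pow_succ]
      gcongr
    -- Sub-claim B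
    have hB : ∀ j : ℕ, A.valuation ((τ ^ j) x - x - (j : Qb) * y) ≤ A.valuation π ^ (n + 1) := by
      intro j
      induction j with
      | zero => simp
      | succ j ihj =>
        have e : (τ ^ (j + 1)) x - x - ((j + 1 : ℕ) : Qb) * y
            = τ ((τ ^ j) x - x - (j : Qb) * y) + (j : Qb) * (τ y - y) := by
          rw [pow_succ', AlgEquiv.mul_apply, map_sub, map_sub, map_mul, map_natCast, hy]
          push_cast; ring
        rw [e]
        refine le_trans (Valuation.map_add _ _ _) (max_le ?_ ?_)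
        · rw [valuation_apply hτ]; exact ihj
        · rw [map_mul]
          calc A.valuation (j : Qb) * A.valuation (τ y - y)
              ≤ 1 * A.valuation π ^ (n + 1) := by
                gcongr
                exact valuation_natCast_le_one j
            _ = A.valuation π ^ (n + 1) := one_mul _
    have h4 : (τ ^ m) x = x := (IntermediateField.mem_fixingSubgroup_iff _ _).mp hτm x hxK
    have h5 := hB m
    rw [h4, sub_self, zero_sub, Valuation.map_neg, map_mul,
      valuation_natCast_eq_one hq hA hm, one_mul] at h5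
    exact h5

/-- A wild inertia element whose order on `K` is prime to `q` fixes `K`. -/
theorem mem_fixingSubgroup_of_wild_of_coprime [Normal ℚ K] (hq : q.Prime)
    (hA : A.LiesOverPrime q) (hπ : IsUnif A K π) {τ : GQ} (hτ : τ ∈ A.inertiaSubgroupIn ℚ)
    (hw : A.valuation (τ π - π) < A.valuation π) {m : ℕ} (hm : ¬ q ∣ m)
    (hτm : τ ^ m ∈ K.fixingSubgroup) : τ ∈ K.fixingSubgroup := by
  obtain ⟨π', hπ'K, hπ'fix, hπ'v⟩ := exists_fixed_unif hq hA hπ hτ hw hm hτm
  have key : ∀ x ∈ K, A.valuation x ≤ 1 → τ x = x := by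
    intro x hxK hx1
    by_contra hne
    have hne' : τ x - x ≠ 0 := sub_ne_zero.mpr hne
    have hK' : τ x - x ∈ K := sub_mem (apply_mem_of_normal τ hxK) hxK
    obtain ⟨n, hn⟩ := hπ.exists_pow_lt hK' hne'
    exact absurd (valuation_sub_le_pow hq hA hπ hτ hπ'K hπ'fix hπ'v hm hτm n x hxK hx1)
      (not_le.mpr hn)
  rw [IntermediateField.mem_fixingSubgroup_iff]
  intro x hxK
  by_cases hx1 : A.valuation x ≤ 1
  · exact key x hxK hx1
  · have hx0 : x ≠ 0 := by
      rintro rfl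
      exact hx1 (by simp)
    have hinv : A.valuation x⁻¹ ≤ 1 := by
      rw [map_inv₀]
      exact inv_le_one_of_one_le₀ (not_le.mp hx1).le
    have h1 := key x⁻¹ (inv_mem hxK) hinv
    rw [map_inv₀] at h1
    exact inv_injective h1

/-- **Wild inertia is a `q`-group modulo the fixing subgroup of `K`.** -/
theorem pow_mem_fixingSubgroup_of_wild [Normal ℚ K] (hq : q.Prime) (hA : A.LiesOverPrime q)
    (hπ : IsUnif A K π) {σ : GQ} (hσ : σ ∈ A.inertiaSubgroupIn ℚ)
    (hw : A.valuation (σ π - π) < A.valuation π) {N : ℕ} (hN : N ≠ 0)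
    (hσN : σ ^ N ∈ K.fixingSubgroup) : ∃ a : ℕ, σ ^ q ^ a ∈ K.fixingSubgroup := by
  obtain ⟨a, m, hm, hNm⟩ := Nat.exists_eq_pow_mul_and_not_dvd hN q hq.ne_one
  refine ⟨a, ?_⟩
  apply mem_fixingSubgroup_of_wild_of_coprime hq hA hπ (Subgroup.pow_mem _ hσ _)
    (wild_pow hσ hw _) hm
  rw [← pow_mul, ← hNm]
  exact hσN

end Wild

section Tame

local instance isAlgClosureQb96 : IsAlgClosure ℚ Qb := ⟨inferInstance, inferInstance⟩
local instance normalQb96 : Normal ℚ Qb := IsAlgClosure.normal ℚ Qb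
local instance isGaloisQb96 : IsGalois ℚ Qb := IsAlgClosure.isGalois ℚ Qb

theorem finiteIndex_fixingSubgroup96 (F : IntermediateField ℚ Qb) [FiniteDimensional ℚ F] :
    F.fixingSubgroup.FiniteIndex := by
  refine ⟨?_⟩
  rw [← IntermediateField.finrank_eq_fixingSubgroup_index]
  exact Module.finrank_pos.ne'

/-- Residue class of an element of `ℚ̄` (junk value `0` outside `A`). -/
noncomputable def resOf (A : ValuationSubring Qb) (x : Qb) : IsLocalRing.ResidueField A :=
  open Classical in if h : x ∈ A then IsLocalRing.residue A ⟨x, h⟩ else 0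

theorem resOf_of_mem {x : Qb} (h : x ∈ A) : resOf A x = IsLocalRing.residue A ⟨x, h⟩ := by
  rw [resOf, dif_pos h]

theorem resOf_one : resOf A 1 = 1 := by
  rw [resOf_of_mem A.one_mem]
  exact map_one (IsLocalRing.residue A)

theorem resOf_mul {x y : Qb} (hx : x ∈ A) (hy : y ∈ A) : resOf A (x * y) = resOf A x * resOf A y := by
  rw [resOf_of_mem hx, resOf_of_mem hy, resOf_of_mem (A.mul_mem _ _ hx hy), ← map_mul]
  rfl

theorem resOf_eq_iff {x y : Qb} (hx : x ∈ A) (hy : y ∈ A) :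
    resOf A x = resOf A y ↔ A.valuation (x - y) < 1 := by
  rw [resOf_of_mem hx, resOf_of_mem hy, ← sub_eq_zero, ← map_sub, IsLocalRing.residue_eq_zero_iff,
    A.valuation_lt_one_iff]
  rfl

theorem resOf_ne_zero {x : Qb} (hx : A.valuation x = 1) : resOf A x ≠ 0 := by
  have hxA : x ∈ A := (A.valuation_le_one_iff x).mp hx.le
  rw [resOf_of_mem hxA, ne_eq, IsLocalRing.residue_eq_zero_iff, A.valuation_lt_one_iff]
  change ¬ A.valuation x < 1
  rw [hx]; exact lt_irrefl _

variable {π : Qb}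

theorem valuation_ratio {σ : GQ} (hσ : σ ∈ A.inertiaSubgroupIn ℚ) (hπ0 : π ≠ 0) :
    A.valuation (σ π / π) = 1 := by
  rw [map_div₀, valuation_apply hσ, div_self]
  exact (Valuation.ne_zero_iff _).mpr hπ0

theorem ratio_mem {σ : GQ} (hσ : σ ∈ A.inertiaSubgroupIn ℚ) (hπ0 : π ≠ 0) : σ π / π ∈ A :=
  (A.valuation_le_one_iff _).mp (valuation_ratio hσ hπ0).le

/-- **The tame character** `σ ↦ σ π / π mod 𝔪_A` on the inertia group. -/
noncomputable def tameChar (A : ValuationSubring Qb) (π : Qb) (hπ0 : π ≠ 0) :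
    ↥(A.inertiaSubgroupIn ℚ) →* (IsLocalRing.ResidueField A)ˣ where
  toFun σ := Units.mk0 (resOf A (σ.1 π / π)) (resOf_ne_zero (valuation_ratio σ.2 hπ0))
  map_one' := by
    apply Units.ext
    simp only [Units.val_mk0, Units.val_one]
    have : ((1 : ↥(A.inertiaSubgroupIn ℚ)) : GQ) π / π = 1 := by
      simp [div_self hπ0]
    rw [this, resOf_one]
  map_mul' σ τ := by
    apply Units.ext
    simp only [Units.val_mk0, Units.val_mul]
    have e : ((σ * τ : ↥(A.inertiaSubgroupIn ℚ)) : GQ) π / π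
        = σ.1 (τ.1 π / π) * (σ.1 π / π) := by
      rw [Subgroup.coe_mul, AlgEquiv.mul_apply, map_div₀]
      have h0 : σ.1 π ≠ 0 := by simpa using hπ0
      field_simp
    have hτm := ratio_mem τ.2 hπ0
    have hσm := ratio_mem σ.2 hπ0
    have hστm : σ.1 (τ.1 π / π) ∈ A := (apply_mem_iff σ.2 _).mpr hτm
    rw [e, resOf_mul hστm hσm, mul_comm]
    congr 1
    rw [resOf_eq_iff hστm hτm]
    exact (ValuationSubring.mem_nonunits_iff (A := A)).mp (apply_sub_mem_nonunits σ.2 hτm)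

theorem tameChar_eq_one_iff (hπ0 : π ≠ 0) (σ : ↥(A.inertiaSubgroupIn ℚ)) :
    tameChar A π hπ0 σ = 1 ↔ A.valuation (σ.1 π - π) < A.valuation π := by
  have hpos : 0 < A.valuation π := (Valuation.pos_iff _).mpr hπ0
  rw [Units.ext_iff]
  change resOf A (σ.1 π / π) = 1 ↔ _
  rw [← resOf_one, resOf_eq_iff (ratio_mem σ.2 hπ0) A.one_mem]
  have e : σ.1 π / π - 1 = (σ.1 π - π) / π := by field_simp
  rw [e, map_div₀, div_lt_one₀ hpos]

variable {K : IntermediateField ℚ Qb}

theorem finite_range_tameChar [FiniteDimensional ℚ K] (hπK : π ∈ K) (hπ0 : π ≠ 0) :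
    Finite (tameChar A π hπ0).range := by
  haveI := finiteIndex_fixingSubgroup96 K
  have hle : K.fixingSubgroup.subgroupOf (A.inertiaSubgroupIn ℚ) ≤ (tameChar A π hπ0).ker := by
    intro σ hσ
    rw [MonoidHom.mem_ker, tameChar_eq_one_iff]
    have h1 : σ.1 π = π :=
      (IntermediateField.mem_fixingSubgroup_iff _ _).mp (Subgroup.mem_subgroupOf.mp hσ) π hπK
    rw [h1, sub_self, map_zero]
    exact (Valuation.pos_iff _).mpr hπ0
  haveI : (tameChar A π hπ0).ker.FiniteIndex := Subgroup.finiteIndex_of_le hle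
  exact Finite.of_equiv _ (QuotientGroup.quotientKerEquivRange (tameChar A π hπ0)).toEquiv

/-- **Tame inertia is cyclic**: there is `σ₀ ∈ I` such that every `σ ∈ I` is `σ₀ ^ n` times a
wild element. -/
theorem exists_tame_generator [FiniteDimensional ℚ K] (hπK : π ∈ K) (hπ0 : π ≠ 0) :
    ∃ σ₀ ∈ A.inertiaSubgroupIn ℚ, ∀ σ ∈ A.inertiaSubgroupIn ℚ, ∃ n : ℤ,
      A.valuation (((σ₀ ^ n)⁻¹ * σ) π - π) < A.valuation π := by
  haveI := finite_range_tameChar (A := A) hπK hπ0
  haveI : IsCyclic (tameChar A π hπ0).range := isCyclic_subgroup_units _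
  obtain ⟨⟨t, ⟨σ₀, rfl⟩⟩, ht⟩ := IsCyclic.exists_generator (α := (tameChar A π hπ0).range)
  refine ⟨σ₀.1, σ₀.2, fun σ hσ => ?_⟩
  obtain ⟨n, hn⟩ := Subgroup.mem_zpowers_iff.mp
    (ht ⟨tameChar A π hπ0 ⟨σ, hσ⟩, ⟨⟨σ, hσ⟩, rfl⟩⟩)
  refine ⟨n, ?_⟩
  have h1 : tameChar A π hπ0 σ₀ ^ n = tameChar A π hπ0 ⟨σ, hσ⟩ := by
    have := congrArg Subtype.val hn
    simpa using this
  have h2 : tameChar A π hπ0 ((σ₀ ^ n)⁻¹ * ⟨σ, hσ⟩) = 1 := by
    rw [map_mul, map_inv, map_zpow, h1, inv_mul_cancel]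
  have h3 := (tameChar_eq_one_iff hπ0 _).mp h2
  simpa using h3

/-- **Structure of inertia modulo the fixing subgroup of a finite normal `K`.**
There is `σ₀ ∈ I` such that every `σ ∈ I` is `σ₀ ^ n * τ` with `τ ^ q ^ a` fixing `K`. -/
theorem exists_generator_mod_wild [FiniteDimensional ℚ K] [Normal ℚ K] (hq : q.Prime)
    (hA : A.LiesOverPrime q) :
    ∃ σ₀ ∈ A.inertiaSubgroupIn ℚ, ∀ σ ∈ A.inertiaSubgroupIn ℚ, ∃ (n : ℤ) (a : ℕ),
      ((σ₀ ^ n)⁻¹ * σ) ^ q ^ a ∈ K.fixingSubgroup := by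
  obtain ⟨π, hπ⟩ := exists_isUnif K hq hA
  obtain ⟨σ₀, hσ₀, h⟩ := exists_tame_generator (A := A) (K := K) hπ.mem hπ.ne_zero
  refine ⟨σ₀, hσ₀, fun σ hσ => ?_⟩
  obtain ⟨n, hn⟩ := h σ hσ
  have hτ : (σ₀ ^ n)⁻¹ * σ ∈ A.inertiaSubgroupIn ℚ :=
    Subgroup.mul_mem _ (Subgroup.inv_mem _ (Subgroup.zpow_mem _ hσ₀ n)) hσ
  haveI := finiteIndex_fixingSubgroup96 K
  obtain ⟨N, hN0, -, hN⟩ := Subgroup.exists_pow_mem_of_index_ne_zero
    (Subgroup.FiniteIndex.index_ne_zero (H := K.fixingSubgroup)) ((σ₀ ^ n)⁻¹ * σ)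
  obtain ⟨a, ha⟩ := pow_mem_fixingSubgroup_of_wild hq hA hπ hτ hn hN0.ne' hN
  exact ⟨n, a, ha⟩

/-- **Cyclicity of `p`-group images of inertia at `q ≠ p`.**  If `f : G_ℚ → Φ` is trivial on the
fixing subgroup of a number field `K` and every element of `f(I)` has `p`-power order, `p ≠ q`
a prime, then `f(I) ⊆ ⟨f σ₀⟩` for some `σ₀ ∈ I`. -/
theorem exists_generator_of_pGroup_image (hq : q.Prime) (hA : A.LiesOverPrime q)
    {Φ : Type*} [Group Φ] (f : GQ →* Φ) (K : IntermediateField ℚ Qb) [FiniteDimensional ℚ K]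
    (hK : K.fixingSubgroup ≤ f.ker) {p : ℕ} (hp : p.Prime) (hpq : p ≠ q)
    (hP : ∀ σ ∈ A.inertiaSubgroupIn ℚ, ∃ b : ℕ, f σ ^ p ^ b = 1) :
    ∃ σ₀ ∈ A.inertiaSubgroupIn ℚ, ∀ σ ∈ A.inertiaSubgroupIn ℚ, ∃ n : ℤ, f σ = f σ₀ ^ n := by
  let L : IntermediateField ℚ Qb := IntermediateField.normalClosure ℚ K Qb
  haveI : FiniteDimensional ℚ L := normalClosure.is_finiteDimensional ℚ K Qb
  haveI : Normal ℚ L := normalClosure.normal ℚ K Qb
  have hL : L.fixingSubgroup ≤ f.ker :=
    (IntermediateField.fixingSubgroup_antitone (IntermediateField.le_normalClosure K)).trans hK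
  obtain ⟨σ₀, hσ₀, h⟩ := exists_generator_mod_wild (A := A) (K := L) hq hA
  refine ⟨σ₀, hσ₀, fun σ hσ => ?_⟩
  obtain ⟨n, a, hna⟩ := h σ hσ
  refine ⟨n, ?_⟩
  set τ := (σ₀ ^ n)⁻¹ * σ with hτ
  have hτI : τ ∈ A.inertiaSubgroupIn ℚ :=
    Subgroup.mul_mem _ (Subgroup.inv_mem _ (Subgroup.zpow_mem _ hσ₀ n)) hσ
  have h1 : f τ ^ q ^ a = 1 := by
    rw [← map_pow]; exact hL hna
  obtain ⟨b, h2⟩ := hP τ hτI
  have hcop : Nat.Coprime (q ^ a) (p ^ b) :=
    Nat.Coprime.pow _ _ ((Nat.coprime_primes hq hp).mpr (Ne.symm hpq))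
  have h3 : f τ = 1 := by
    have h4 : orderOf (f τ) ∣ q ^ a := orderOf_dvd_of_pow_eq_one h1
    have h5 : orderOf (f τ) ∣ p ^ b := orderOf_dvd_of_pow_eq_one h2
    have h6 : orderOf (f τ) = 1 := Nat.eq_one_of_dvd_coprimes hcop h4 h5
    exact orderOf_eq_one_iff.mp h6
  have h7 : σ = σ₀ ^ n * τ := by rw [hτ]; group
  rw [h7, map_mul, h3, mul_one, map_zpow]

end Tame

end Fermat.Agent.TW.LocalQ.TameImage96
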