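/-
Programme TW (S56), WP5 (local at `q ≠ p`), brick G1 (helper96).

**The decomposition group is topologically generated by Frobenius and inertia.**
`A` a valuation subring of `ℚ̄` over the prime `q`, `φ` a Frobenius element at `A`, `K ⊂ ℚ̄` a finite
normal extension of `ℚ`.  Every `σ` in the decomposition group of `A` can be written
`σ = φ ^ i * τ * u` with `τ` in the inertia group of `A` and `u` fixing `K`
(`exists_frob_pow_mul_inertia`).

Proof: `σ` induces an automorphism of the finite residue field of `A ∩ K`, which is a power of the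
`q`-Frobenius (`FiniteField.exists_forall_apply_eq_pow`); so `(φ ^ i)⁻¹ * σ` is congruent to the
identity on `A ∩ K`, and `S13.UnramBridge.exists_inertia_lift` lifts its restriction to `K` into the
inertia group.
-/
import Mathlib
import Fermat.Agent.S05.Inertia
import Fermat.Agent.S13.UnramBridge
import Fermat.Agent.RED.DESC.NumberFieldDVR27
import Fermat.Agent.TW.LocalQ.TameImage96

set_option autoImplicit false
set_option linter.style.haveILetI false

namespace Fermat.Agent.TW.LocalQ.FrobGen96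

open Fermat.Agent.S05.Inertia
open Fermat.Agent.RED.Interface4 Fermat.Agent.RED.DESC.NumberFieldDVR27
open Fermat.Agent.TW.LocalQ.TameImage96

local notation "Qb" => AlgebraicClosure ℚ
local notation "GQ" => (AlgebraicClosure ℚ ≃ₐ[ℚ] AlgebraicClosure ℚ)

variable {A : ValuationSubring Qb} {q : ℕ}

section Frob

/-- The Frobenius congruence `φ x ≡ x ^ q` modulo `𝔪_A`. -/
theorem frob_sub_pow_lt {φ : GQ} (h : A.IsFrobeniusAt φ q) {x : Qb} (hx : x ∈ A) :
    A.valuation (φ x - x ^ q) < 1 := by
  have h1 := h.smul_residue_eq (IsLocalRing.residue A ⟨x, hx⟩)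
  rw [← IsLocalRing.ResidueField.residue_smul, ← map_pow, ← sub_eq_zero, ← map_sub,
    IsLocalRing.residue_eq_zero_iff, ← ValuationSubring.coe_mem_nonunits_iff] at h1
  exact (ValuationSubring.mem_nonunits_iff (A := A)).mp h1

theorem decomp_valuation_apply {σ : GQ} (hσ : σ ∈ A.decompositionSubgroup ℚ) (x : Qb) :
    A.valuation (σ x) = A.valuation x :=
  valuation_apply_of_mem_decomposition hσ x

/-- Iterated Frobenius congruence. -/
theorem frob_pow_sub_pow_lt {φ : GQ} (h : A.IsFrobeniusAt φ q) (i : ℕ) {x : Qb} (hx : x ∈ A) :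
    A.valuation ((φ ^ i) x - x ^ q ^ i) < 1 := by
  induction i generalizing x with
  | zero => simp
  | succ i ih =>
    have e : (φ ^ (i + 1)) x - x ^ q ^ (i + 1)
        = φ ((φ ^ i) x - x ^ q ^ i) + (φ (x ^ q ^ i) - (x ^ q ^ i) ^ q) := by
      rw [pow_succ', AlgEquiv.mul_apply, map_sub, pow_succ, pow_mul]; ring
    rw [e]
    apply Valuation.map_add_lt
    · rw [decomp_valuation_apply h.mem_decompositionSubgroup]; exact ih hx
    · exact frob_sub_pow_lt h (pow_mem hx _)

end Frob

section ResidueAction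

variable {K : IntermediateField ℚ Qb} [Normal ℚ K]

/-- The restriction of `σ ∈ D_A` to `A ∩ K`. -/
noncomputable def resO (σ : GQ) (hσ : σ ∈ A.decompositionSubgroup ℚ) : AK A K →+* AK A K where
  toFun x := ⟨⟨σ ((x : K) : Qb), apply_mem_of_normal σ (x : K).2⟩,
    (mem_AK_iff A K _).mpr
      ((apply_mem_iff_of_mem_decomposition hσ _).mpr ((mem_AK_iff A K _).mp x.2))⟩
  map_one' := by
    apply Subtype.ext; apply Subtype.ext
    simp
  map_mul' x y := by
    apply Subtype.ext; apply Subtype.ext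
    simp
  map_zero' := by
    apply Subtype.ext; apply Subtype.ext
    simp
  map_add' x y := by
    apply Subtype.ext; apply Subtype.ext
    simp

@[simp] theorem coe_resO (σ : GQ) (hσ : σ ∈ A.decompositionSubgroup ℚ) (x : AK A K) :
    (((resO σ hσ x : AK A K) : K) : Qb) = σ ((x : K) : Qb) := rfl

theorem resO_comp_inv (σ : GQ) (hσ : σ ∈ A.decompositionSubgroup ℚ) (x : AK A K) :
    resO σ hσ (resO σ⁻¹ (inv_mem hσ) x) = x := by
  apply Subtype.ext; apply Subtype.ext
  rw [coe_resO, coe_resO]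
  exact AlgEquiv.apply_symm_apply σ _

theorem resO_inv_comp (σ : GQ) (hσ : σ ∈ A.decompositionSubgroup ℚ) (x : AK A K) :
    resO σ⁻¹ (inv_mem hσ) (resO σ hσ x) = x := by
  apply Subtype.ext; apply Subtype.ext
  rw [coe_resO, coe_resO]
  exact AlgEquiv.symm_apply_apply σ _

theorem isLocalHom_resO (σ : GQ) (hσ : σ ∈ A.decompositionSubgroup ℚ) :
    IsLocalHom (resO (K := K) σ hσ) := by
  constructor
  intro a ha
  have h := ha.map (resO (K := K) σ⁻¹ (inv_mem hσ))
  rwa [resO_inv_comp] at h

/-- The automorphism of the residue field of `A ∩ K` induced by `σ ∈ D_A`. -/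
noncomputable def resKappa (σ : GQ) (hσ : σ ∈ A.decompositionSubgroup ℚ) :
    IsLocalRing.ResidueField (AK A K) ≃+* IsLocalRing.ResidueField (AK A K) :=
  haveI := isLocalHom_resO (K := K) σ hσ
  haveI := isLocalHom_resO (K := K) σ⁻¹ (inv_mem hσ)
  RingEquiv.ofRingHom (IsLocalRing.ResidueField.map (resO (K := K) σ hσ))
    (IsLocalRing.ResidueField.map (resO (K := K) σ⁻¹ (inv_mem hσ)))
    (by
      ext x
      obtain ⟨x, rfl⟩ := IsLocalRing.residue_surjective x
      simp only [RingHom.coe_comp, Function.comp_apply, RingHom.id_apply]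
      rw [IsLocalRing.ResidueField.map_residue, IsLocalRing.ResidueField.map_residue,
        resO_comp_inv])
    (by
      ext x
      obtain ⟨x, rfl⟩ := IsLocalRing.residue_surjective x
      simp only [RingHom.coe_comp, Function.comp_apply, RingHom.id_apply]
      rw [IsLocalRing.ResidueField.map_residue, IsLocalRing.ResidueField.map_residue,
        resO_inv_comp])

theorem resKappa_residue (σ : GQ) (hσ : σ ∈ A.decompositionSubgroup ℚ) (x : AK A K) :
    resKappa σ hσ (IsLocalRing.residue (AK A K) x)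
      = IsLocalRing.residue (AK A K) (resO σ hσ x) := by
  haveI := isLocalHom_resO (K := K) σ hσ
  show IsLocalRing.ResidueField.map (resO (K := K) σ hσ) (IsLocalRing.residue (AK A K) x) = _
  exact IsLocalRing.ResidueField.map_residue (resO (K := K) σ hσ) x

/-- Every `σ ∈ D_A` acts on the residue field of `A ∩ K` as a power of the `q`-Frobenius. -/
theorem exists_pow_residue [FiniteDimensional ℚ K] (hq : q.Prime) (hA : A.LiesOverPrime q)
    (σ : GQ) (hσ : σ ∈ A.decompositionSubgroup ℚ) :
    ∃ i : ℕ, ∀ x : AK A K, A.valuation (σ ((x : K) : Qb) - ((x : K) : Qb) ^ q ^ i) < 1 := by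
  haveI : Fact q.Prime := ⟨hq⟩
  haveI : Finite (IsLocalRing.ResidueField (AK A K)) := finite_residueField_AK A K hq.ne_zero hA
  haveI : CharP (IsLocalRing.ResidueField (AK A K)) q := charP_residueField_AK A K hq hA
  letI : Algebra (ZMod q) (IsLocalRing.ResidueField (AK A K)) := ZMod.algebra _ q
  let g : IsLocalRing.ResidueField (AK A K) ≃ₐ[ZMod q] IsLocalRing.ResidueField (AK A K) :=
    AlgEquiv.ofRingEquiv (f := resKappa (K := K) σ hσ) (fun r => by
      have := DFunLike.congr_fun (Subsingleton.elim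
        (((resKappa (K := K) σ hσ : _ ≃+* _) : _ →+* _).comp
          (algebraMap (ZMod q) (IsLocalRing.ResidueField (AK A K))))
        (algebraMap (ZMod q) (IsLocalRing.ResidueField (AK A K)))) r
      simpa using this)
  obtain ⟨i, hi⟩ := FiniteField.exists_forall_apply_eq_pow (ZMod q) q
    (IsLocalRing.ResidueField (AK A K)) g
  refine ⟨i, fun x => ?_⟩
  have h1 := hi (IsLocalRing.residue (AK A K) x)
  have h2 : g (IsLocalRing.residue (AK A K) x)
      = IsLocalRing.residue (AK A K) (resO σ hσ x) := resKappa_residue σ hσ x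
  rw [h2, Nat.card_zmod, ← map_pow, residue_eq_iff, ← sub_eq_zero, ← map_sub,
    IsLocalRing.residue_eq_zero_iff, A.valuation_lt_one_iff] at h1
  simpa using h1

end ResidueAction

section Main

variable {K : IntermediateField ℚ Qb} [Normal ℚ K] [FiniteDimensional ℚ K]

/-- **`D_A = φ^ℕ · I_A · Fix K`.** -/
theorem exists_frob_pow_mul_inertia (hq : q.Prime) (hA : A.LiesOverPrime q) {φ : GQ}
    (hφ : A.IsFrobeniusAt φ q) {σ : GQ} (hσ : σ ∈ A.decompositionSubgroup ℚ) :
    ∃ (i : ℕ) (τ : GQ), τ ∈ A.inertiaSubgroupIn ℚ ∧ (φ ^ i * τ)⁻¹ * σ ∈ K.fixingSubgroup := by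
  obtain ⟨i, hi⟩ := exists_pow_residue (K := K) hq hA σ hσ
  have hφD : φ ^ i ∈ A.decompositionSubgroup ℚ := pow_mem hφ.mem_decompositionSubgroup i
  have hφD' : (φ ^ i)⁻¹ ∈ A.decompositionSubgroup ℚ := inv_mem hφD
  set τ' : GQ := (φ ^ i)⁻¹ * σ with hτ'
  -- `τ'` is congruent to the identity on `A ∩ K`
  have hcong : ∀ x : Qb, x ∈ K → x ∈ A → A.valuation (τ' x - x) < 1 := by
    intro x hxK hxA
    have h1 : A.valuation (σ x - x ^ q ^ i) < 1 :=
      hi ⟨⟨x, hxK⟩, (mem_AK_iff A K _).mpr hxA⟩
    have h2 : A.valuation ((φ ^ i) x - x ^ q ^ i) < 1 := frob_pow_sub_pow_lt hφ i hxA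
    have h3 : A.valuation (σ x - (φ ^ i) x) < 1 := by
      have e : σ x - (φ ^ i) x = (σ x - x ^ q ^ i) - ((φ ^ i) x - x ^ q ^ i) := by ring
      rw [e]
      exact lt_of_le_of_lt (Valuation.map_sub _ _ _) (max_lt h1 h2)
    have e : τ' x - x = (φ ^ i)⁻¹ (σ x - (φ ^ i) x) := by
      rw [hτ', AlgEquiv.mul_apply, map_sub]
      congr 1
      exact (AlgEquiv.symm_apply_apply (φ ^ i) x).symm
    rw [e, decomp_valuation_apply hφD']
    exact h3
  -- lift `τ'|_K` to inertia
  obtain ⟨τ, hτI, hτK⟩ := Fermat.Agent.S13.UnramBridge.exists_inertia_lift K A hq hA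
    (AlgEquiv.restrictNormal τ' K) (by
      intro x hx
      have hxA : ((x : K) : Qb) ∈ A :=
        mem_of_isIntegral A (map_isIntegral_int (algebraMap K Qb) hx)
      have h1 : (((AlgEquiv.restrictNormal τ' K) x : K) : Qb) = τ' (x : Qb) :=
        AlgEquiv.restrictNormal_commutes τ' K x
      rw [h1]
      exact (ValuationSubring.mem_nonunits_iff (A := A)).mpr (hcong _ x.2 hxA))
  refine ⟨i, τ, hτI, ?_⟩
  rw [IntermediateField.mem_fixingSubgroup_iff]
  intro x hx
  have h1 : τ x = τ' x := by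
    have := hτK ⟨x, hx⟩
    rw [this]
    exact AlgEquiv.restrictNormal_commutes τ' K ⟨x, hx⟩
  have e : (φ ^ i * τ)⁻¹ * σ = τ⁻¹ * τ' := by
    rw [hτ']; group
  rw [e, AlgEquiv.mul_apply, ← h1]
  exact AlgEquiv.symm_apply_apply τ x

end Main

end Fermat.Agent.TW.LocalQ.FrobGen96
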