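/-
Programme TW (S56), WP5a (unipotent primes `q ≠ p`), brick Q2 (helper96).  Pure algebra, on top of
helper95's `DualMat95` (`2 × 2` matrices over the dual numbers).

`r : G →* M₂(k[ε])`, `H ≤ G` a subgroup whose image under `r` is cyclic, generated by `r σ₀`,
`r σ₀` has trace `2` and determinant `1` (i.e. characteristic polynomial `(X - 1)²`), the
residual matrix of `σ₀` is not `1`, and `2 ≠ 0` in `k`.  Then the cocycle `cocyc r` restricted to
`H` is the coboundary of a trace-zero matrix `X`:

  `cocyc r σ = resid r σ * X * resid r σ⁻¹ - X`   for all `σ ∈ H`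

(`cocyc_eq_coboundary_on`).  The heart is `exists_commutator_eq`: for `N ≠ 0` with
`tr N = det N = 0` the image of `X ↦ N X - X N` on trace-zero matrices is
`{B | tr B = 0, tr (N B) = 0}`.
-/
import Mathlib
import Fermat.Agent.TW.Cocycle.DualMat95

set_option autoImplicit false

namespace Fermat.Agent.TW.LocalQ.UnipLift96

open Matrix TrivSqZeroExt Fermat.Agent.TW.Cocycle.DualMat95

variable {k : Type} [Field k]

local notation "M₂" => Matrix (Fin 2) (Fin 2)

theorem comm_two (α β γ δ x y z w : k) :
    !![α, β; γ, δ] * !![x, y; z, w] - !![x, y; z, w] * !![α, β; γ, δ]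
      = !![β * z - y * γ, α * y + β * w - x * β - y * δ;
           γ * x + δ * z - z * α - w * γ, γ * y - z * β] := by
  rw [Matrix.mul_fin_two, Matrix.mul_fin_two]
  ext i j
  fin_cases i <;> fin_cases j <;> simp <;> ring

theorem exists_commutator_eq_entries (h2 : (2 : k) ≠ 0) (α β γ a b c : k)
    (hN0 : ¬ (α = 0 ∧ β = 0 ∧ γ = 0)) (hdet : α * α + β * γ = 0)
    (hNB : 2 * α * a + β * c + γ * b = 0) :
    ∃ x y z : k, !![α, β; γ, -α] * !![x, y; z, -x] - !![x, y; z, -x] * !![α, β; γ, -α]
      = !![a, b; c, -a] := by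
  by_cases hβ : β = 0
  · by_cases hγ : γ = 0
    · exfalso
      apply hN0
      refine ⟨?_, hβ, hγ⟩
      rw [hβ, zero_mul, add_zero] at hdet
      exact mul_self_eq_zero.mp hdet
    · refine ⟨c / (2 * γ), -a / γ, 0, ?_⟩
      rw [comm_two]
      subst hβ
      ext i j
      fin_cases i <;> fin_cases j <;> simp <;> field_simp <;>
        first
        | ring1
        | linear_combination (-2 : k) * hNB
        | linear_combination (2 : k) * hNB
        | linear_combination (-1 : k) * hNB
  · refine ⟨-b / (2 * β), 0, a / β, ?_⟩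
    rw [comm_two]
    ext i j
    fin_cases i <;> fin_cases j <;> simp <;> field_simp <;>
      first
      | ring1
      | linear_combination (-2 : k) * hNB

/-- The image of `ad N` for a nonzero nilpotent `2 × 2` matrix `N`. -/
theorem exists_commutator_eq (h2 : (2 : k) ≠ 0) {N B : M₂ k} (hN0 : N ≠ 0)
    (hNtr : N.trace = 0) (hNdet : N.det = 0) (hBtr : B.trace = 0) (hNB : (N * B).trace = 0) :
    ∃ X : M₂ k, X.trace = 0 ∧ N * X - X * N = B := by
  rw [Matrix.trace_fin_two] at hNtr hBtr hNB
  rw [Matrix.det_fin_two] at hNdet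
  simp only [Matrix.mul_apply, Fin.sum_univ_two] at hNB
  have hN11 : N 1 1 = -N 0 0 := by linear_combination hNtr
  have hB11 : B 1 1 = -B 0 0 := by linear_combination hBtr
  have hNeta : N = !![N 0 0, N 0 1; N 1 0, -N 0 0] := by
    rw [← hN11]; exact Matrix.eta_fin_two N
  have hBeta : B = !![B 0 0, B 0 1; B 1 0, -B 0 0] := by
    rw [← hB11]; exact Matrix.eta_fin_two B
  obtain ⟨x, y, z, hxyz⟩ := exists_commutator_eq_entries h2 (N 0 0) (N 0 1) (N 1 0)
    (B 0 0) (B 0 1) (B 1 0)
    (by
      rintro ⟨h1, h2', h3⟩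
      apply hN0
      rw [hNeta, h1, h2', h3]
      ext i j
      fin_cases i <;> fin_cases j <;> simp)
    (by rw [hN11] at hNdet; linear_combination -hNdet)
    (by rw [hN11, hB11] at hNB; linear_combination hNB)
  refine ⟨!![x, y; z, -x], by simp [Matrix.trace_fin_two], ?_⟩
  rw [hNeta, hBeta]
  exact hxyz

/-- A `2 × 2` matrix with trace and determinant zero squares to zero. -/
theorem mul_self_eq_zero_of_trace_det {N : M₂ k} (hNtr : N.trace = 0) (hNdet : N.det = 0) :
    N * N = 0 := by
  rw [Matrix.trace_fin_two] at hNtr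
  rw [Matrix.det_fin_two] at hNdet
  have hN11 : N 1 1 = -N 0 0 := by linear_combination hNtr
  ext i j
  fin_cases i <;> fin_cases j <;>
    simp [Matrix.mul_apply, Fin.sum_univ_two, hN11] <;>
    first
    | ring1
    | linear_combination -hNdet + N 0 0 * hN11

section Group

variable {G : Type} [Group G] (r : G →* M₂ (DualNumber k))

theorem fst_two : (2 : DualNumber k).fst = 2 := by
  have : (2 : DualNumber k) = ((2 : ℕ) : DualNumber k) := by norm_num
  rw [this, TrivSqZeroExt.fst_natCast]; norm_num

theorem snd_two : (2 : DualNumber k).snd = 0 := by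
  have : (2 : DualNumber k) = ((2 : ℕ) : DualNumber k) := by norm_num
  rw [this, TrivSqZeroExt.snd_natCast]

theorem trace_fst (R : M₂ (DualNumber k)) : (R.trace).fst = (fstM R).trace := by
  simp [Matrix.trace_fin_two]

theorem trace_snd (R : M₂ (DualNumber k)) : (R.trace).snd = (sndM R).trace := by
  simp [Matrix.trace_fin_two]

/-- The coboundary of `X`. -/
noncomputable def cob (X : M₂ k) (g : G) : M₂ k := resid r g * X * resid r g⁻¹ - X

theorem cob_mul (X : M₂ k) (g h : G) :
    cob r X (g * h) = resid r g * cob r X h * resid r g⁻¹ + cob r X g := by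
  simp only [cob]
  rw [_root_.mul_inv_rev, map_mul, map_mul]
  noncomm_ring

theorem cob_one (X : M₂ k) : cob r X 1 = 0 := by
  simp [cob]

/-- A map satisfying the cocycle identity which vanishes at `g` vanishes on the powers of `g`. -/
theorem eq_zero_on_zpowers {c : G → M₂ k}
    (hmul : ∀ g h, c (g * h) = resid r g * c h * resid r g⁻¹ + c g) (h1 : c 1 = 0)
    {g : G} (hg : c g = 0) (n : ℤ) : c (g ^ n) = 0 := by
  have hnat : ∀ m : ℕ, c (g ^ m) = 0 := by
    intro m
    induction m with
    | zero => simpa using h1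
    | succ m ih => rw [pow_succ', hmul, ih, hg]; simp
  have hinv : ∀ x : G, c x = 0 → c x⁻¹ = 0 := by
    intro x hx
    have h := hmul x x⁻¹
    rw [mul_inv_cancel, h1, hx, add_zero] at h
    have h' : resid r x⁻¹ * (resid r x * c x⁻¹ * resid r x⁻¹) * resid r x = 0 := by
      rw [← h]; simp
    have e1 : resid r x⁻¹ * resid r x = 1 := resid_inv_mul r x
    calc c x⁻¹ = (resid r x⁻¹ * resid r x) * c x⁻¹ * (resid r x⁻¹ * resid r x) := by
          rw [e1]; simp
      _ = resid r x⁻¹ * (resid r x * c x⁻¹ * resid r x⁻¹) * resid r x := by noncomm_ring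
      _ = 0 := h'
  cases n with
  | ofNat m => simpa using hnat m
  | negSucc m =>
    rw [zpow_negSucc]
    exact hinv _ (hnat (m + 1))

/-- **Unipotent lifts on a cyclic image are infinitesimally trivial.** -/
theorem cocyc_eq_coboundary_on (h2 : (2 : k) ≠ 0) (H : Subgroup G) {σ₀ : G}
    (hcyc : ∀ σ ∈ H, ∃ n : ℤ, r σ = r (σ₀ ^ n))
    (htr : (r σ₀).trace = 2) (hdet : (r σ₀).det = 1) (hne : resid r σ₀ ≠ 1) :
    ∃ X : M₂ k, X.trace = 0 ∧ ∀ σ ∈ H, cocyc r σ = resid r σ * X * resid r σ⁻¹ - X := by
  set u := resid r σ₀ with hu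
  set ui := resid r σ₀⁻¹ with hui
  set C := cocyc r σ₀ with hC
  have huui : u * ui = 1 := resid_mul_inv r σ₀
  have hS : sndM (r σ₀) = C * u := sndM_eq_cocyc_mul r σ₀
  -- trace and determinant conditions
  have htru : u.trace = 2 := by
    have := congrArg TrivSqZeroExt.fst htr
    rw [trace_fst, fst_two] at this
    exact this
  have htrS : (C * u).trace = 0 := by
    have := congrArg TrivSqZeroExt.snd htr
    rw [trace_snd, hS, snd_two] at this
    exact this
  have hdet' := det_eq r σ₀
  rw [hdet] at hdet'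
  have hdetu : u.det = 1 := by
    have := congrArg TrivSqZeroExt.fst hdet'
    rw [TrivSqZeroExt.fst_one, TrivSqZeroExt.fst_mk] at this
    exact this.symm
  have htrC : C.trace = 0 := by
    have := congrArg TrivSqZeroExt.snd hdet'
    rw [TrivSqZeroExt.snd_one, TrivSqZeroExt.snd_mk, ← hu, hdetu, one_mul] at this
    exact this.symm
  -- the nilpotent `N = u - 1`
  set N := u - 1 with hN
  have hNtr : N.trace = 0 := by
    rw [hN, Matrix.trace_sub, htru, Matrix.trace_one]; simp
  have hNdet : N.det = 0 := by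
    rw [Matrix.trace_fin_two] at htru
    rw [Matrix.det_fin_two] at hdetu
    rw [hN, Matrix.det_fin_two]
    simp only [Matrix.sub_apply, Matrix.one_apply_eq, Matrix.one_apply_ne, ne_eq,
      Fin.isValue, zero_ne_one, one_ne_zero, not_false_eq_true, sub_zero]
    linear_combination hdetu - htru
  have hN0 : N ≠ 0 := by
    intro h
    apply hne
    rw [hN, sub_eq_zero] at h
    exact h
  have hNN : N * N = 0 := mul_self_eq_zero_of_trace_det hNtr hNdet
  have huN : u * N = N := by
    have : u = N + 1 := by rw [hN]; abel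
    rw [this, add_mul, one_mul, hNN, zero_add]
  have hNB : (N * (C * u)).trace = 0 := by
    calc (N * (C * u)).trace = ((N * C) * u).trace := by rw [mul_assoc]
      _ = (u * (N * C)).trace := Matrix.trace_mul_comm _ _
      _ = ((u * N) * C).trace := by rw [mul_assoc]
      _ = (N * C).trace := by rw [huN]
      _ = (C * N).trace := Matrix.trace_mul_comm _ _
      _ = (C * u).trace - C.trace := by rw [hN, mul_sub, mul_one, Matrix.trace_sub]
      _ = 0 := by rw [htrS, htrC, sub_zero]
  obtain ⟨X, hXtr, hX⟩ := exists_commutator_eq h2 hN0 hNtr hNdet htrS hNB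
  refine ⟨X, hXtr, ?_⟩
  -- the cocycle at `σ₀`
  have hC0 : C = u * X * ui - X := by
    have h1 : u * X - X * u = C * u := by
      rw [← hX, hN]; noncomm_ring
    calc C = (C * u) * ui := by rw [mul_assoc, huui, mul_one]
      _ = (u * X - X * u) * ui := by rw [h1]
      _ = u * X * ui - X * (u * ui) := by noncomm_ring
      _ = u * X * ui - X := by rw [huui, mul_one]
  -- the difference cocycle vanishes on `⟨σ₀⟩`
  set c' : G → M₂ k := fun g => cocyc r g - cob r X g with hc'
  have hmul : ∀ g h, c' (g * h) = resid r g * c' h * resid r g⁻¹ + c' g := by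
    intro g h
    simp only [hc']
    rw [cocyc_mul, cob_mul]
    noncomm_ring
  have h1 : c' 1 = 0 := by simp [hc', cob_one]
  have hσ₀ : c' σ₀ = 0 := by
    simp only [hc', cob]
    rw [← hC, ← hu, ← hui, ← hC0, sub_self]
  intro σ hσ
  obtain ⟨n, hn⟩ := hcyc σ hσ
  have hinv : r σ⁻¹ = r (σ₀ ^ n)⁻¹ := by
    have e1 : r σ⁻¹ * r σ = 1 := by rw [← map_mul, inv_mul_cancel, map_one]
    have e2 : r σ * r (σ₀ ^ n)⁻¹ = 1 := by rw [hn, ← map_mul, mul_inv_cancel, map_one]
    exact left_inv_eq_right_inv e1 e2
  have hzero := eq_zero_on_zpowers r hmul h1 hσ₀ n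
  have hσeq : c' σ = c' (σ₀ ^ n) := by
    simp only [hc', cob, cocyc, resid_apply, hn, hinv]
  rw [hzero] at hσeq
  have := sub_eq_zero.mp hσeq
  rw [this]
  rfl

end Group

end Fermat.Agent.TW.LocalQ.UnipLift96
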