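/-
Programme TW (S56), WP5a (helper96): the local bound at a prime `q ≠ p` where `ρbar` is ramified
and the lifts are unipotent on inertia ("minimally ramified"):

  `localBoundUnipotent : Contract52.LocalBoundUnipotent p ρbar q`.

The subspace is `L = pull (unramH1 𝓤 I MD)`, where `D = D_A` is the decomposition group of the
place `A = primeLocalPlace q`, `MD = ad⁰ρbar` restricted to `D`, `I ≤ D` the inertia group, `𝓤` the
level topology induced from `G_ℚ`, and `pull : H¹(D, MD) → H¹(G_q, ad⁰ρbar)` is the restriction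
along `G_q → D`.

* `dim L ≤ dim unramH1 ≤ dim MD^D ≤ dim (ad⁰ρbar)^{G_q}` (helper61's `finrank_unramH1_le` +
  `D = φ^ℕ · I · Fix K` from `FrobGen96`);
* if `ρ` is a lift of `ρbar` to `k[ε]` which is unipotent on inertia at `q`, then `r(I_A)` is a
  `p`-group (`(R - 1)² = 0 ⇒ R^p = 1`), hence cyclic (`TameImage96`), so the cocycle of `ρ` is a
  coboundary on `I_A` (`UnipLift96`; here `ρbar` ramified at `q` and `p ≠ 2` are used).
-/
import Mathlib
import Fermat.Agent.TW.Spec.Contract52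
import Fermat.Agent.TW.Cocycle.Contract95
import Fermat.Agent.TW.LocQ.UnramBound61
import Fermat.Agent.TW.OrdLocal.PadicPlace97
import Fermat.Agent.ES.FROB.FrobFacts12
import Fermat.Agent.PT.BR.LevelBridge13
import Fermat.Agent.TW.LocalQ.TameImage96
import Fermat.Agent.TW.LocalQ.UnipLift96
import Fermat.Agent.TW.LocalQ.FrobGen96
import Fermat.Agent.TW.LocalQ.PlaceConj96

set_option autoImplicit false

open CategoryTheory Module groupCohomology ExtCitation Polynomial
open Fermat.Agent.TW.Spec.Defs52 Fermat.Agent.TW.Spec.Contract52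
open Fermat.Agent.PT.PRO.LevelCoh28 Fermat.Agent.PT.BR.LevelBridge13
open Fermat.Agent.TW.LocQ.UnramBound61
open Fermat.Agent.TW.Cocycle.DualMat95

namespace Fermat.Agent.TW.LocalQ.UnipBound96

local notation "Qbar" => AlgebraicClosure ℚ
local notation "M₂" => Matrix (Fin 2) (Fin 2)

/-! ### `2 × 2` matrices with characteristic polynomial `(X - 1)²` -/

section Charpoly

variable {R : Type} [CommRing R]

theorem sub_one_sq_expand : ((X : R[X]) - 1) ^ 2 = X ^ 2 - C (2 : R) * X + C (1 : R) := by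
  simp only [map_ofNat, map_one]; ring

theorem trace_eq_two_of_charpoly [Nontrivial R] {N : M₂ R} (h : N.charpoly = (X - 1) ^ 2) :
    N.trace = 2 := by
  rw [Matrix.charpoly_fin_two, sub_one_sq_expand] at h
  have h1 := congrArg (fun f => Polynomial.coeff f 1) h
  simp [coeff_one] at h1
  exact h1

theorem det_eq_one_of_charpoly [Nontrivial R] {N : M₂ R} (h : N.charpoly = (X - 1) ^ 2) :
    N.det = 1 := by
  rw [Matrix.charpoly_fin_two, sub_one_sq_expand] at h
  have h1 := congrArg (fun f => Polynomial.coeff f 0) h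
  simpa [coeff_X, coeff_one] using h1

theorem sub_one_sq_eq_zero_of_charpoly {N : M₂ R} (h : N.charpoly = (X - 1) ^ 2) :
    (N - 1) ^ 2 = 0 := by
  have := Matrix.aeval_self_charpoly N
  rw [h] at this
  simpa using this

theorem one_add_pow_of_sq_zero {S : Type} [Ring S] {N : S} (h : N ^ 2 = 0) (n : ℕ) :
    (1 + N) ^ n = 1 + n • N := by
  induction n with
  | zero => simp
  | succ n ih =>
    rw [pow_succ, ih, add_mul, mul_add, mul_add, one_mul, mul_one, smul_mul_assoc,
      ← pow_two, h, smul_zero, add_zero, succ_nsmul, one_mul]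
    abel

theorem pow_char_eq_one_of_charpoly {k : Type} [Field k] (p : ℕ) [CharP k p]
    {N : M₂ (DualNumber k)} (h : N.charpoly = (X - 1) ^ 2) : N ^ p = 1 := by
  have h1 := sub_one_sq_eq_zero_of_charpoly h
  have h2 := one_add_pow_of_sq_zero h1 p
  rw [add_sub_cancel] at h2
  rw [h2, ← Nat.cast_smul_eq_nsmul k p (N - 1), CharP.cast_eq_zero, zero_smul, add_zero]

end Charpoly

/-! ### `⟨φ⟩ · I` is dense in the decomposition group -/

section Dense

variable {A : ValuationSubring Qbar} {q : ℕ}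

/-- `⟨φ⟩ · I` is dense in the decomposition group `D_A`, for the level topology induced from
`G_ℚ`. -/
theorem isFrobDense_decomposition (hq : q.Prime) (hA : A.LiesOverPrime q) {φ : GQ}
    (hφ : A.IsFrobeniusAt φ q) :
    IsFrobDense (pullSets (A.decompositionSubgroup ℚ).subtype) (A.inertiaSubgroup ℚ)
      (⟨φ, hφ.mem_decompositionSubgroup⟩ : ↥(A.decompositionSubgroup ℚ)) where
  normal := by
    unfold ValuationSubring.inertiaSubgroup
    exact MonoidHom.normal_ker _
  dense := by
    rintro _ ⟨F, hF, rfl⟩ g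
    let K : IntermediateField ℚ Qbar := IntermediateField.normalClosure ℚ F Qbar
    have : FiniteDimensional ℚ K := normalClosure.is_finiteDimensional ℚ F Qbar
    have : Normal ℚ K := normalClosure.normal ℚ F Qbar
    obtain ⟨i, τ, hτ, hmem⟩ :=
      Fermat.Agent.TW.LocalQ.FrobGen96.exists_frob_pow_mul_inertia (K := K) hq hA hφ g.2
    obtain ⟨τ', hτ', rfl⟩ := hτ
    set φD : ↥(A.decompositionSubgroup ℚ) := ⟨φ, hφ.mem_decompositionSubgroup⟩ with hφD
    refine ⟨i, τ', hτ', (φD ^ i * τ')⁻¹ * g, ?_, by group⟩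
    rw [Subgroup.mem_comap]
    exact IntermediateField.fixingSubgroup_antitone (IntermediateField.le_normalClosure F) hmem

end Dense

/-! ### Restriction to the decomposition group and to the local Galois group -/

section Plumbing

variable (p : ℕ) [Fact p.Prime] (M : Rep.{0} (ZMod p) GQ) (q : Nat.Primes)

/-- The decomposition group of the chosen place over `q`. -/
noncomputable def DA : Subgroup GQ := (primeLocalPlace q).decompositionSubgroup ℚ

/-- The local Galois group maps to the decomposition group. -/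
noncomputable def locD : primeLocalGaloisGroup q →* ↥(DA q) :=
  (primeLocalToGlobal q).codRestrict (DA q)
    (Fermat.Agent.TW.OrdLocal.PadicPlace97.primeLocalToGlobal_mem_decompositionSubgroup q)

/-- `M` restricted to the decomposition group. -/
noncomputable abbrev MD : Rep.{0} (ZMod p) ↥(DA q) := Rep.res (DA q).subtype M

/-- The identity map, as a morphism `res (locD q) (MD) ⟶ resAt q M`. -/
noncomputable def phi : Rep.res (locD q) (MD p M q) ⟶ resAt q M :=
  Rep.ofHom (ρ := (M.ρ.comp (DA q).subtype).comp (locD q)) (σ := M.ρ.comp (locAt q))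
    ⟨LinearMap.id, fun _ => rfl⟩

/-- Restriction `H¹(D, M) → H¹(G_q, M)`. -/
noncomputable def pull : H1 (MD p M q) →ₗ[ZMod p] H1 (resAt q M) :=
  (groupCohomology.map (locD q) (phi p M q) 1).hom

/-- Restriction of cocycles to the decomposition group. -/
noncomputable def restrD (c : cocycles₁ M) : cocycles₁ (MD p M q) :=
  ⟨fun d => c.1 d.1, by
    rw [mem_cocycles₁_iff]
    intro g h
    exact (mem_cocycles₁_iff c.1).1 c.2 g.1 h.1⟩

theorem restrD_apply (c : cocycles₁ M) (d : ↥(DA q)) : (restrD p M q c).1 d = c.1 d.1 := rfl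

theorem pull_H1π (c : cocycles₁ M) :
    pull p M q ((H1π (MD p M q)).hom (restrD p M q c)) = resH1At q M ((H1π M).hom c) := by
  unfold pull
  show (groupCohomology.map (locD q) (phi p M q) 1).hom ((H1π (MD p M q)).hom (restrD p M q c)) =
    (groupCohomology.map (locAt q) (𝟙 (resAt q M)) 1).hom ((H1π M).hom c)
  have h1 := H1π_comp_map_apply (locD q) (phi p M q) (restrD p M q c)
  have h2 := H1π_comp_map_apply (locAt q) (𝟙 (resAt q M)) c
  rw [h1, h2]
  congr 1

/-- The `D`-invariants are `G_q`-invariants. -/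
noncomputable def invIncl : (MD p M q).ρ.invariants →ₗ[ZMod p] (resAt q M).ρ.invariants where
  toFun m := ⟨m.1, fun τ => m.2 (locD q τ)⟩
  map_add' _ _ := rfl
  map_smul' _ _ := rfl

theorem invIncl_injective : Function.Injective (invIncl p M q) := fun m m' h => by
  have h1 : ((invIncl p M q m : (resAt q M).ρ.invariants) : resAt q M) =
      ((invIncl p M q m' : (resAt q M).ρ.invariants) : resAt q M) := congrArg Subtype.val h
  exact Subtype.ext h1

theorem finrank_invariants_le [Module.Finite (ZMod p) M] :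
    finrank (ZMod p) (MD p M q).ρ.invariants ≤ h0At q M := by
  have : Module.Finite (ZMod p) (resAt q M) := (inferInstance : Module.Finite (ZMod p) M)
  exact LinearMap.finrank_le_finrank_of_injective (invIncl_injective p M q)

end Plumbing

/-! ### The module `ad⁰ρbar` -/

section Ad0

variable (p : ℕ) [Fact p.Prime] {k : Type} [Field k] [Algebra (ZMod p) k]
  (ρbar : ResidualGaloisRep k)

theorem finite_ad0 [Finite k] : Finite (ad0 p ρbar) := by
  have : Finite (Module.End k ρbar.V) := Module.finite_of_finite k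
  exact (inferInstance : Finite ↥(End0 ρbar))

theorem moduleFinite_ad0 [Finite k] : Module.Finite (ZMod p) (ad0 p ρbar) := by
  have := finite_ad0 p ρbar
  exact Module.Finite.of_finite

theorem ad0_ρ_eq_self {s : GQ} (hs : ρbar.ρ s = 1) (m : ad0 p ρbar) :
    (ad0 p ρbar).ρ s m = m := by
  apply Fermat.Agent.TW.Cocycle.Contract95.ad0ToEnd_injective
  have hs' : ρbar.ρ s⁻¹ = 1 := by
    have h := map_mul ρbar.ρ s s⁻¹
    rw [mul_inv_cancel, map_one, hs, one_mul] at h
    exact h.symm
  rw [ad0_ρ_apply, hs, hs', one_mul, mul_one]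

theorem smooth_ad0 (m : ad0 p ρbar) : ∃ F : IntermediateField ℚ Qbar, FiniteDimensional ℚ F ∧
    ∀ s ∈ F.fixingSubgroup, (ad0 p ρbar).ρ s m = m := by
  obtain ⟨L, hL, h⟩ := ρbar.factorsThroughFiniteLevel
  refine ⟨L, hL, fun s hs => ad0_ρ_eq_self p ρbar (h s fun x hx => ?_) m⟩
  exact (IntermediateField.mem_fixingSubgroup_iff L s).1 hs x hx

end Ad0

/-! ### The cocycle of a lift which is unipotent on inertia is a coboundary on inertia -/

section Coboundary

open Fermat.Agent.TW.Cocycle Fermat.Agent.S53.MatrixModel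

variable (p : ℕ) [Fact p.Prime] {k : Type} [Field k] [Algebra (ZMod p) k]
  (ρbar : ResidualGaloisRep k)

theorem exists_coboundary_on_inertia (hp2 : p ≠ 2) {q : ℕ} (hq : q.Prime) (hqp : q ≠ p)
    (hram : ¬ ρbar.IsUnramifiedAt q) {A : ValuationSubring Qbar} (hA : A.LiesOverPrime q)
    (ρ : GaloisRepAdic (DualNumber k)) (hunip : ρ.IsUnipotentOnInertiaAt q)
    (c : cocycles₁ (ad0 p ρbar))
    (hlc : IsLiftCocycle ρbar ρ (fun g => ad0ToEnd p ρbar (c.1 g))) :
    ∃ m : ad0 p ρbar, ∀ σ ∈ A.inertiaSubgroupIn ℚ, c.1 σ = (ad0 p ρbar).ρ σ m - m := by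
  obtain ⟨bbar, b, hmat⟩ := hlc
  have hmat' : Contract95.MatrixIdentity ρbar ρ bbar b (fun g => ad0ToEnd p ρbar (c.1 g)) := hmat
  obtain ⟨hres, hc⟩ := (Contract95.matrixIdentity_iff bbar b _).1 hmat'
  set r := matrixOf ρ b with hr
  have hcont : Fermat.Agent.S53.MatCont r := matCont_matrixOf ρ b
  obtain ⟨L, hLfin, hL⟩ := MatrixLift95.exists_finite_forall_eq_one hcont
  have hCharP : CharP k p := Contract95.charP_of_algebra_zmod p
  have hchar : ∀ σ ∈ A.inertiaSubgroupIn ℚ, (r σ).charpoly = (X - 1) ^ 2 := by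
    intro σ hσ
    rw [hr, matrixOf_apply, LinearMap.charpoly_toMatrix]
    exact hunip A hA σ hσ
  -- the unit-valued homomorphism
  let f : GQ →* (M₂ (DualNumber k))ˣ := r.toHomUnits
  have hf : ∀ σ, ((f σ : (M₂ (DualNumber k))ˣ) : M₂ (DualNumber k)) = r σ := fun σ => rfl
  have hK : L.fixingSubgroup ≤ f.ker := by
    intro s hs
    rw [MonoidHom.mem_ker]
    apply Units.ext
    rw [hf, hL s hs]
    rfl
  have hP : ∀ σ ∈ A.inertiaSubgroupIn ℚ, ∃ n : ℕ, f σ ^ p ^ n = 1 := by
    intro σ hσ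
    refine ⟨1, ?_⟩
    apply Units.ext
    rw [pow_one, Units.val_pow_eq_pow_val, hf, pow_char_eq_one_of_charpoly p (hchar σ hσ)]
    rfl
  obtain ⟨σ₀, hσ₀, hgen⟩ := TameImage96.exists_generator_of_pGroup_image hq hA f L hK
    (Fact.out : p.Prime) hqp.symm hP
  have hcyc : ∀ σ ∈ A.inertiaSubgroupIn ℚ, ∃ n : ℤ, r σ = r (σ₀ ^ n) := by
    intro σ hσ
    obtain ⟨n, hn⟩ := hgen σ hσ
    refine ⟨n, ?_⟩
    have h1 := congrArg Units.val hn
    rw [← map_zpow] at h1
    exact h1
  -- nontriviality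
  obtain ⟨σ₁, hσ₁, hne₁⟩ := PlaceConj96.exists_mem_inertia_ne_one ρbar hq hram hA
  have hne : resid r σ₀ ≠ 1 := by
    intro h1
    apply hne₁
    obtain ⟨n, hn⟩ := hcyc σ₁ hσ₁
    have hker : σ₀ ^ n ∈ (resid r).ker := zpow_mem ((MonoidHom.mem_ker).2 h1) n
    have h2 : resid r σ₁ = 1 := by
      rw [resid_apply, hn, ← resid_apply]
      exact (MonoidHom.mem_ker).1 hker
    rw [hres, Fermat.Agent.S53.matrixOfBasisRes_apply] at h2
    apply (LinearMap.toMatrix bbar bbar).injective
    rw [h2, LinearMap.toMatrix_one]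
  have h2k : (2 : k) ≠ 0 := by
    apply Ring.two_ne_zero
    rw [ringChar.eq k p]
    exact hp2
  obtain ⟨Xm, hXtr, hX⟩ := UnipLift96.cocyc_eq_coboundary_on r h2k (A.inertiaSubgroupIn ℚ) hcyc
    (trace_eq_two_of_charpoly (hchar σ₀ hσ₀)) (det_eq_one_of_charpoly (hchar σ₀ hσ₀)) hne
  have hT : ∀ Y : M₂ k, LinearMap.toMatrix bbar bbar (Matrix.toLin bbar bbar Y) = Y :=
    LinearMap.toMatrix_toLin bbar bbar
  have hm0 : Matrix.toLin bbar bbar Xm ∈ End0 ρbar := by
    rw [mem_End0_iff, LinearMap.trace_eq_matrix_trace k bbar, hT, hXtr]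
  let m : ad0 p ρbar := (⟨Matrix.toLin bbar bbar Xm, hm0⟩ : End0 ρbar)
  have hm : ad0ToEnd p ρbar m = Matrix.toLin bbar bbar Xm := rfl
  refine ⟨m, fun σ hσ => ?_⟩
  apply Contract95.ad0ToEnd_injective
  apply (LinearMap.toMatrix bbar bbar).injective
  rw [Contract95.ad0ToEnd_sub, ad0_ρ_apply, map_sub, LinearMap.toMatrix_mul,
    LinearMap.toMatrix_mul, hm, hT, ← hc σ, hX σ hσ, hres]
  rfl

end Coboundary

/-! ### The contract -/

section Contract

open Fermat.Agent.TW.Cocycle Fermat.Agent.S53.MatrixModel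

variable (p : ℕ) [Fact p.Prime] {k : Type} [Field k] [Algebra (ZMod p) k]
  (ρbar : ResidualGaloisRep k)

/-- The cocycle of a lift is level-constant on the decomposition group. -/
theorem isLevel₁_restrD (q : Nat.Primes) (ρ : GaloisRepAdic (DualNumber k))
    (c : cocycles₁ (ad0 p ρbar))
    (hlc : IsLiftCocycle ρbar ρ (fun g => ad0ToEnd p ρbar (c.1 g))) :
    IsLevel₁ (pullSets (DA q).subtype)
      ((restrD p (ad0 p ρbar) q c : cocycles₁ (MD p (ad0 p ρbar) q)) :
        ↥(DA q) → MD p (ad0 p ρbar) q) := by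
  obtain ⟨bbar, b, hmat⟩ := hlc
  have hmat' : Contract95.MatrixIdentity ρbar ρ bbar b (fun g => ad0ToEnd p ρbar (c.1 g)) := hmat
  obtain ⟨-, hc⟩ := (Contract95.matrixIdentity_iff bbar b _).1 hmat'
  have hcont : Fermat.Agent.S53.MatCont (matrixOf ρ b) := matCont_matrixOf ρ b
  obtain ⟨L, hLfin, hL⟩ := MatrixLift95.exists_finite_forall_eq_one hcont
  refine ⟨_, ⟨L, hLfin, rfl⟩, fun g s hs => ?_⟩
  show c.1 (g.1 * s.1) = c.1 g.1
  apply Contract95.ad0ToEnd_injective
  apply (LinearMap.toMatrix bbar bbar).injective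
  have h1 := hc (g.1 * s.1)
  have h2 := hc g.1
  exact h1.symm.trans ((MatrixLift95.cocyc_mul_of_eq_one g.1 (hL s.1 hs)).trans h2)

/-- **WP5a.** The local bound at a prime `q ≠ p` at which `ρbar` is ramified, for lifts which are
unipotent on inertia at `q`. -/
theorem localBoundUnipotent (hp2 : p ≠ 2) [Finite k] (q : Nat.Primes) (hqp : (q : ℕ) ≠ p)
    (hram : ¬ ρbar.IsUnramifiedAt q) : LocalBoundUnipotent p ρbar q := by
  have hq : (q : ℕ).Prime := q.2
  have hA : (primeLocalPlace q).LiesOverPrime (q : ℕ) :=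
    Fermat.Agent.TW.OrdLocal.PadicPlace97.primeLocalPlace_liesOverPrime q
  obtain ⟨φ, hφ⟩ := Fermat.Agent.ES.FROB.FrobFacts12.exists_isFrobeniusAt_of q hq
    (primeLocalPlace q) hA
  have h𝓤 : IsLevelBasis (pullSets (DA q).subtype) := isLevelBasis_pullSets (DA q).subtype
  have hd : IsFrobDense (pullSets (DA q).subtype) ((primeLocalPlace q).inertiaSubgroup ℚ)
      (⟨φ, hφ.mem_decompositionSubgroup⟩ : ↥(DA q)) := isFrobDense_decomposition hq hA hφ
  have hfin : Module.Finite (ZMod p) (ad0 p ρbar) := moduleFinite_ad0 p ρbar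
  have hfinD : Module.Finite (ZMod p) (MD p (ad0 p ρbar) q) := hfin
  have hdisc : IsDiscrete (pullSets (DA q).subtype) (MD p (ad0 p ρbar) q) :=
    isDiscrete_pullSets (ad0 p ρbar) (DA q).subtype (smooth_ad0 p ρbar)
  have hfinU := finiteDimensional_unramH1 h𝓤 hd hdisc
  refine ⟨(unramH1 (pullSets (DA q).subtype) ((primeLocalPlace q).inertiaSubgroup ℚ)
    (MD p (ad0 p ρbar) q) h𝓤).map (pull p (ad0 p ρbar) q), inferInstance, ?_, ?_⟩
  · rw [zero_mul, add_zero]
    exact (Submodule.finrank_map_le _ _).trans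
      ((finrank_unramH1_le h𝓤 hd hdisc).trans (finrank_invariants_le p (ad0 p ρbar) q))
  · rintro ρ x ⟨c, hlc, rfl⟩ hunip
    rw [← pull_H1π]
    refine Submodule.mem_map_of_mem (H1π_mem_unramH1 h𝓤 (isLevel₁_restrD p ρbar q ρ c hlc) ?_)
    obtain ⟨m, hm⟩ := exists_coboundary_on_inertia p ρbar hp2 hq hqp hram hA ρ
      (hunip) c hlc
    refine ⟨m, fun i hi => ?_⟩
    exact hm i.1 ⟨i, hi, rfl⟩

/-- The field `unipotent` of `Glue52b.DeliverablesB`, from the hypothesis `hmin` of S56. -/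
theorem unipotent_field (hp2 : p ≠ 2) [Finite k] (Smin : Finset ℕ)
    (hmin : ∀ q : ℕ, q.Prime → q ≠ p → (q ∈ Smin ↔ ¬ ρbar.IsUnramifiedAt q)) :
    ∀ q : Nat.Primes, (q : ℕ) ∈ Smin → (q : ℕ) ≠ p → LocalBoundUnipotent p ρbar q :=
  fun q hq hqp => localBoundUnipotent p ρbar hp2 q hqp ((hmin q q.2 hqp).1 hq)

end Contract

end Fermat.Agent.TW.LocalQ.UnipBound96
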