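/-
Programme TW (S56), WP5b, arithmetic input (helper96): the TAME STRUCTURE of the decomposition group
`D_A ⊂ G_ℚ` of a place `A` of `ℚ̄` over a prime `q`, in the abstract form `TameDef61.IsTameFrob`
of helper61, and its transport to the Prelude's local Galois group `primeLocalGaloisGroup q`.

* `tameChar_conj_frob` : `θ(φ σ φ⁻¹) = θ(σ) ^ q` for a Frobenius element `φ` (the tame character
  `θ = tameChar A π` of `TameImage96`, `π` a uniformizer of `A ∩ K`, `K/ℚ` finite normal);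
* `isTameFrob_decomposition` : `IsTameFrob (pullSets D.subtype) (A.inertiaSubgroup ℚ) ⟨φ, _⟩ q`.
-/
import Mathlib
import Fermat.Agent.TW.LocQ.TameDef61
import Fermat.Agent.TW.LocalQ.UnipBound96

set_option autoImplicit false

namespace Fermat.Agent.TW.LocalQ.TameFrob96

open Fermat.Agent.S05.Inertia
open Fermat.Agent.TW.LocalQ.TameImage96 Fermat.Agent.TW.LocalQ.FrobGen96

local notation "Qb" => AlgebraicClosure ℚ
local notation "GQ" => (AlgebraicClosure ℚ ≃ₐ[ℚ] AlgebraicClosure ℚ)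

variable {A : ValuationSubring Qb} {q : ℕ}

/-! ### The Frobenius relation for the tame character -/

section FrobRel

variable {K : IntermediateField ℚ Qb} {π : Qb}

theorem resOf_pow {x : Qb} (hx : x ∈ A) (n : ℕ) : resOf A (x ^ n) = resOf A x ^ n := by
  rw [resOf_of_mem hx, resOf_of_mem (pow_mem hx n), ← map_pow]
  rfl

theorem mem_of_valuation_eq_one {x : Qb} (hx : A.valuation x = 1) : x ∈ A :=
  (A.valuation_le_one_iff _).mp hx.le

/-- The tame character does not depend on the uniformizer: `σ π' / π' ≡ σ π / π` for `π' = u π`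
with `u` a unit. -/
theorem resOf_ratio_eq {σ : GQ} (hσ : σ ∈ A.inertiaSubgroupIn ℚ) (hπ0 : π ≠ 0) {π' : Qb}
    (hπ'0 : π' ≠ 0) (hv : A.valuation π' = A.valuation π) :
    resOf A (σ π' / π') = resOf A (σ π / π) := by
  set u := π' / π with hu
  have hu0 : u ≠ 0 := div_ne_zero hπ'0 hπ0
  have hvπ : A.valuation π ≠ 0 := (Valuation.ne_zero_iff _).mpr hπ0
  have huv : A.valuation u = 1 := by rw [hu, map_div₀, hv, div_self hvπ]
  have huA : u ∈ A := mem_of_valuation_eq_one huv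
  have hπ' : π' = u * π := by rw [hu]; field_simp
  have hσu0 : σ u ≠ 0 := by simpa using hu0
  have hσπ0 : σ π ≠ 0 := by simpa using hπ0
  have e : σ π' / π' = (σ u / u) * (σ π / π) := by
    rw [hπ', map_mul]; field_simp
  have h1 : A.valuation (σ u / u) = 1 := by
    rw [map_div₀, valuation_apply hσ, div_self ((Valuation.ne_zero_iff _).mpr hu0)]
  have hm1 := mem_of_valuation_eq_one h1
  have hm2 := ratio_mem hσ hπ0
  rw [e, resOf_mul hm1 hm2]
  have h2 : resOf A (σ u / u) = 1 := by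
    rw [← resOf_one, resOf_eq_iff hm1 A.one_mem]
    have e2 : σ u / u - 1 = (σ u - u) / u := by field_simp
    rw [e2, map_div₀, huv, div_one]
    exact (ValuationSubring.mem_nonunits_iff (A := A)).mp (apply_sub_mem_nonunits hσ huA)
  rw [h2, one_mul]

/-- **Frobenius relation**: `(φ σ φ⁻¹) π / π ≡ (σ π / π) ^ q`. -/
theorem resOf_conj_frob {φ : GQ} (hφ : A.IsFrobeniusAt φ q) {σ : GQ}
    (hσ : σ ∈ A.inertiaSubgroupIn ℚ) (hπ0 : π ≠ 0) :
    resOf A ((φ * σ * φ⁻¹) π / π) = resOf A (σ π / π) ^ q := by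
  have hφD := hφ.mem_decompositionSubgroup
  have hφD' : φ⁻¹ ∈ A.decompositionSubgroup ℚ := inv_mem hφD
  set π' : Qb := φ⁻¹ π with hπ'
  have hπ'0 : π' ≠ 0 := by simpa [hπ'] using hπ0
  have hv : A.valuation π' = A.valuation π := decomp_valuation_apply hφD' π
  have hφπ' : φ π' = π := by
    rw [hπ']
    exact AlgEquiv.apply_symm_apply φ π
  have e : (φ * σ * φ⁻¹) π / π = φ (σ π' / π') := by
    rw [map_div₀, hφπ', AlgEquiv.mul_apply, AlgEquiv.mul_apply]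
  have hr' : σ π' / π' ∈ A := ratio_mem hσ hπ'0
  have hφr' : φ (σ π' / π') ∈ A := (apply_mem_iff_of_mem_decomposition hφD _).mpr hr'
  rw [e, ← resOf_ratio_eq hσ hπ0 hπ'0 hv, ← resOf_pow hr', resOf_eq_iff hφr' (pow_mem hr' q)]
  exact frob_sub_pow_lt hφ hr'

theorem tameChar_conj_frob {φ : GQ} (hφ : A.IsFrobeniusAt φ q) (hπ0 : π ≠ 0)
    (σ : ↥(A.inertiaSubgroupIn ℚ)) (hconj : φ * σ.1 * φ⁻¹ ∈ A.inertiaSubgroupIn ℚ) :
    tameChar A π hπ0 ⟨φ * σ.1 * φ⁻¹, hconj⟩ = tameChar A π hπ0 σ ^ q := by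
  apply Units.ext
  rw [Units.val_pow_eq_pow_val]
  exact resOf_conj_frob hφ σ.2 hπ0

end FrobRel

/-! ### The tame structure of the decomposition group -/

section Tame

open Fermat.Agent.PT.PRO.LevelCoh28 Fermat.Agent.PT.BR.LevelBridge13
open Fermat.Agent.TW.LocQ.UnramBound61 Fermat.Agent.TW.LocQ.TameDef61

variable (A)

/-- The inertia group inside `D_A` maps to the inertia group inside `G_ℚ`. -/
noncomputable def inD : ↥(A.inertiaSubgroup ℚ) →* ↥(A.inertiaSubgroupIn ℚ) where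
  toFun i := ⟨i.1.1, Subgroup.mem_map_of_mem _ i.2⟩
  map_one' := rfl
  map_mul' _ _ := rfl

theorem mem_inertiaSubgroup_iff_coe (d : ↥(A.decompositionSubgroup ℚ)) :
    d ∈ A.inertiaSubgroup ℚ ↔ d.1 ∈ A.inertiaSubgroupIn ℚ :=
  (Subgroup.mem_map_iff_mem (Subgroup.subtype_injective _)).symm

/-- The tame character on the inertia subgroup of `D_A`. -/
noncomputable def tameCharD (π : Qb) (hπ0 : π ≠ 0) :
    ↥(A.inertiaSubgroup ℚ) →* (IsLocalRing.ResidueField A)ˣ :=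
  (tameChar A π hπ0).comp (inD A)

/-- Wild inertia (relative to the uniformizer `π`), as a subgroup of `D_A`. -/
noncomputable def wildD (π : Qb) (hπ0 : π ≠ 0) : Subgroup ↥(A.decompositionSubgroup ℚ) :=
  (tameCharD A π hπ0).ker.map (A.inertiaSubgroup ℚ).subtype

variable {A}

theorem mem_wildD_iff {π : Qb} {hπ0 : π ≠ 0} (d : ↥(A.decompositionSubgroup ℚ)) :
    d ∈ wildD A π hπ0 ↔ ∃ h : d ∈ A.inertiaSubgroup ℚ, tameCharD A π hπ0 ⟨d, h⟩ = 1 := by
  constructor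
  · rintro ⟨i, hi, rfl⟩
    exact ⟨i.2, hi⟩
  · rintro ⟨h, h1⟩
    exact ⟨⟨d, h⟩, h1, rfl⟩

theorem wildD_le_inertia {π : Qb} {hπ0 : π ≠ 0} : wildD A π hπ0 ≤ A.inertiaSubgroup ℚ := by
  rintro _ ⟨i, -, rfl⟩
  exact i.2

/-- Elements of inertia fixing `π` are wild. -/
theorem tameCharD_eq_one_of_fix {π : Qb} {hπ0 : π ≠ 0} (i : ↥(A.inertiaSubgroup ℚ))
    (h : i.1.1 π = π) : tameCharD A π hπ0 i = 1 := by
  show tameChar A π hπ0 (inD A i) = 1
  rw [tameChar_eq_one_iff]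
  show A.valuation (i.1.1 π - π) < A.valuation π
  rw [h, sub_self, map_zero]
  exact (Valuation.pos_iff _).mpr hπ0

variable {K : IntermediateField ℚ Qb}

/-- Wild inertia is a `q`-group modulo the fixing subgroup of `K`. -/
theorem exists_pow_mem_of_mem_wildD [FiniteDimensional ℚ K] [Normal ℚ K] (hq : q.Prime)
    (hA : A.LiesOverPrime q) {π : Qb} (hπ : IsUnif A K π) {d : ↥(A.decompositionSubgroup ℚ)}
    (hd : d ∈ wildD A π hπ.ne_zero) : ∃ a : ℕ, (d ^ q ^ a).1 ∈ K.fixingSubgroup := by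
  obtain ⟨h, h1⟩ := (mem_wildD_iff d).1 hd
  have hdI : d.1 ∈ A.inertiaSubgroupIn ℚ := (mem_inertiaSubgroup_iff_coe A d).1 h
  have hw : A.valuation (d.1 π - π) < A.valuation π :=
    (tameChar_eq_one_iff hπ.ne_zero (inD A ⟨d, h⟩)).1 h1
  have := finiteIndex_fixingSubgroup96 K
  obtain ⟨N, hN0, -, hN⟩ := Subgroup.exists_pow_mem_of_index_ne_zero
    (Subgroup.FiniteIndex.index_ne_zero (H := K.fixingSubgroup)) d.1
  obtain ⟨a, ha⟩ := pow_mem_fixingSubgroup_of_wild hq hA hπ hdI hw hN0.ne' hN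
  exact ⟨a, by simpa using ha⟩

/-- **The tame structure at the level `K`** (finite normal over `ℚ`), for any normal subgroup `U`
of `D_A` containing `D_A ∩ Gal(ℚ̄/K)`. -/
theorem exists_isTameAt [FiniteDimensional ℚ K] [Normal ℚ K] (hq : q.Prime)
    (hA : A.LiesOverPrime q) {φ : GQ} (hφ : A.IsFrobeniusAt φ q)
    (U : Subgroup ↥(A.decompositionSubgroup ℚ)) [hUn : U.Normal]
    (hKU : K.fixingSubgroup.comap (A.decompositionSubgroup ℚ).subtype ≤ U) :
    ∃ (W : Subgroup ↥(A.decompositionSubgroup ℚ)) (τ : ↥(A.decompositionSubgroup ℚ)),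
      IsTameAt U (A.inertiaSubgroup ℚ) q W τ ∧
      ∃ w ∈ W, (⟨φ, hφ.mem_decompositionSubgroup⟩ : ↥(A.decompositionSubgroup ℚ)) * τ *
        (⟨φ, hφ.mem_decompositionSubgroup⟩ : ↥(A.decompositionSubgroup ℚ))⁻¹ = τ ^ q * w := by
  obtain ⟨π, hπ⟩ := exists_isUnif K hq hA
  have hπ0 := hπ.ne_zero
  set θ := tameCharD A π hπ0 with hθ
  obtain ⟨σ₀, hσ₀, hgen⟩ := exists_tame_generator (A := A) (K := K) hπ.mem hπ0
  set τ : ↥(A.decompositionSubgroup ℚ) := ⟨σ₀, mem_decompositionSubgroup hσ₀⟩ with hτ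
  have hτI : τ ∈ A.inertiaSubgroup ℚ := (mem_inertiaSubgroup_iff_coe A τ).2 hσ₀
  set t₀ : ↥(A.inertiaSubgroup ℚ) := ⟨τ, hτI⟩ with ht₀
  set φD : ↥(A.decompositionSubgroup ℚ) := ⟨φ, hφ.mem_decompositionSubgroup⟩ with hφD
  have hInorm : (A.inertiaSubgroup ℚ).Normal := by
    unfold ValuationSubring.inertiaSubgroup
    exact MonoidHom.normal_ker _
  -- a power of `τ` fixes `K`
  have := finiteIndex_fixingSubgroup96 K
  obtain ⟨N, hN0, -, hN⟩ := Subgroup.exists_pow_mem_of_index_ne_zero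
    (Subgroup.FiniteIndex.index_ne_zero (H := K.fixingSubgroup)) σ₀
  have hθN : θ t₀ ^ N = 1 := by
    rw [← map_pow]
    apply tameCharD_eq_one_of_fix
    show (σ₀ ^ N) π = π
    exact (IntermediateField.mem_fixingSubgroup_iff _ _).mp hN π hπ.mem
  refine ⟨wildD A π hπ0 ⊔ U, τ, ⟨le_sup_right, ?_, ?_, hτI, ?_⟩, ?_⟩
  · -- mem_mul
    intro w hw
    obtain ⟨y, hy, z, hz, rfl⟩ := Subgroup.mem_sup_of_normal_right.1 hw
    exact ⟨y, wildD_le_inertia hy, z, hz, rfl⟩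
  · -- pow_mem
    intro w hw
    obtain ⟨y, hy, z, hz, rfl⟩ := Subgroup.mem_sup_of_normal_right.1 hw
    obtain ⟨a, ha⟩ := exists_pow_mem_of_mem_wildD hq hA hπ hy
    refine ⟨a, ?_⟩
    have hyU : y ^ q ^ a ∈ U := hKU ha
    rw [← QuotientGroup.eq_one_iff] at hyU ⊢
    rw [QuotientGroup.mk_pow] at hyU ⊢
    rw [QuotientGroup.mk_mul, (QuotientGroup.eq_one_iff z).2 hz, mul_one]
    exact hyU
  · -- gen
    intro i hi
    have hiI : i.1 ∈ A.inertiaSubgroupIn ℚ := (mem_inertiaSubgroup_iff_coe A i).1 hi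
    obtain ⟨n, hn⟩ := hgen i.1 hiI
    -- `θ i = θ τ ^ n`
    have hθi : θ ⟨i, hi⟩ = θ t₀ ^ n := by
      have hmem : (t₀ ^ n)⁻¹ * ⟨i, hi⟩ ∈ (θ).ker := by
        rw [MonoidHom.mem_ker]
        show tameChar A π hπ0 (inD A ((t₀ ^ n)⁻¹ * ⟨i, hi⟩)) = 1
        rw [tameChar_eq_one_iff]
        have e : ((inD A ((t₀ ^ n)⁻¹ * ⟨i, hi⟩) : ↥(A.inertiaSubgroupIn ℚ)) : GQ)
            = (σ₀ ^ n)⁻¹ * i.1 := by
          simp [inD, ht₀, hτ]
        rw [e]
        exact hn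
      rw [MonoidHom.mem_ker, map_mul, map_inv, map_zpow, inv_mul_eq_one] at hmem
      exact hmem.symm
    -- reduce the exponent to a natural number
    have hN0' : (N : ℤ) ≠ 0 := by exact_mod_cast hN0.ne'
    set m : ℕ := (n % (N : ℤ)).toNat with hm
    have hmn : ((m : ℕ) : ℤ) = n % (N : ℤ) := Int.toNat_of_nonneg (Int.emod_nonneg _ hN0')
    have hθm : θ t₀ ^ n = θ t₀ ^ m := by
      have h1 : n = (N : ℤ) * (n / (N : ℤ)) + n % (N : ℤ) := (Int.mul_ediv_add_emod n N).symm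
      rw [h1, zpow_add, zpow_mul, zpow_natCast, hθN, one_zpow, one_mul, ← hmn, zpow_natCast]
    refine ⟨m, (τ ^ m)⁻¹ * i, ?_, by group⟩
    apply Subgroup.mem_sup_left
    rw [mem_wildD_iff]
    have hmemI : (τ ^ m)⁻¹ * i ∈ A.inertiaSubgroup ℚ :=
      Subgroup.mul_mem _ (Subgroup.inv_mem _ (Subgroup.pow_mem _ hτI m)) hi
    refine ⟨hmemI, ?_⟩
    have e : (⟨(τ ^ m)⁻¹ * i, hmemI⟩ : ↥(A.inertiaSubgroup ℚ)) = (t₀ ^ m)⁻¹ * ⟨i, hi⟩ := rfl
    rw [e, map_mul, map_inv, map_pow, hθi, hθm, inv_mul_cancel]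
  · -- the Frobenius relation
    have hconjI : φD * τ * φD⁻¹ ∈ A.inertiaSubgroup ℚ := hInorm.conj_mem τ hτI φD
    have hconjIn : φ * σ₀ * φ⁻¹ ∈ A.inertiaSubgroupIn ℚ :=
      (mem_inertiaSubgroup_iff_coe A (φD * τ * φD⁻¹)).1 hconjI
    have hθc : θ ⟨φD * τ * φD⁻¹, hconjI⟩ = θ t₀ ^ q :=
      tameChar_conj_frob hφ hπ0 ⟨σ₀, hσ₀⟩ hconjIn
    refine ⟨(τ ^ q)⁻¹ * (φD * τ * φD⁻¹), ?_, by group⟩
    apply Subgroup.mem_sup_left
    rw [mem_wildD_iff]
    have hmemI : (τ ^ q)⁻¹ * (φD * τ * φD⁻¹) ∈ A.inertiaSubgroup ℚ :=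
      Subgroup.mul_mem _ (Subgroup.inv_mem _ (Subgroup.pow_mem _ hτI q)) hconjI
    refine ⟨hmemI, ?_⟩
    have e : (⟨(τ ^ q)⁻¹ * (φD * τ * φD⁻¹), hmemI⟩ : ↥(A.inertiaSubgroup ℚ))
        = (t₀ ^ q)⁻¹ * ⟨φD * τ * φD⁻¹, hconjI⟩ := rfl
    rw [e, map_mul, map_inv, map_pow, hθc, inv_mul_cancel]

/-- **The tame structure of the decomposition group** of a place `A` of `ℚ̄` over `q`. -/
theorem isTameFrob_decomposition (hq : q.Prime) (hA : A.LiesOverPrime q) {φ : GQ}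
    (hφ : A.IsFrobeniusAt φ q) :
    IsTameFrob (pullSets (A.decompositionSubgroup ℚ).subtype) (A.inertiaSubgroup ℚ)
      (⟨φ, hφ.mem_decompositionSubgroup⟩ : ↥(A.decompositionSubgroup ℚ)) q where
  toIsFrobDense := Fermat.Agent.TW.LocalQ.UnipBound96.isFrobDense_decomposition hq hA hφ
  tame := by
    rintro _ ⟨F, hF, rfl⟩ hUn
    let K : IntermediateField ℚ Qb := IntermediateField.normalClosure ℚ F Qb
    have : FiniteDimensional ℚ K := normalClosure.is_finiteDimensional ℚ F Qb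
    have : Normal ℚ K := normalClosure.normal ℚ F Qb
    exact exists_isTameAt (K := K) hq hA hφ _
      (Subgroup.comap_mono
        (IntermediateField.fixingSubgroup_antitone (IntermediateField.le_normalClosure F)))

end Tame

end Fermat.Agent.TW.LocalQ.TameFrob96
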