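/-
Programme TW (S56), WP5b, arithmetic input (helper96), part (c): transport of the tame structure
`TameFrob96.isTameFrob_decomposition` of `D_A ⊂ G_ℚ` (`A = primeLocalPlace q`) to the Prelude's
local Galois group `primeLocalGaloisGroup q`, along helper97's isomorphism
`LocalGlobal97.primeLocalEquivDecomposition q`.

* `isTameFrob_comap_equiv`  : transport of helper61's `IsTameFrob` along a group isomorphism;
* `localInertia q`          : the preimage of the inertia group of `primeLocalPlace q`;
* `exists_local_frobenius`  : there is `φ` in the local group mapping to a Frobenius element;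
* `isTameFrob_local`        : `IsTameFrob (pullSets (locAt q)) (localInertia q) φ q` for every such `φ`.
-/
import Mathlib
import Fermat.Agent.TW.Bridge.LocalGlobal97
import Fermat.Agent.TW.LocalQ.TameFrob96

set_option autoImplicit false

namespace Fermat.Agent.TW.LocalQ.TameLocal96

open ExtCitation
open Fermat.Agent.PT.PRO.LevelCoh28 Fermat.Agent.PT.BR.LevelBridge13
open Fermat.Agent.TW.LocQ.UnramBound61 Fermat.Agent.TW.LocQ.TameDef61
open Fermat.Agent.TW.Spec.Defs52
open Fermat.Agent.TW.Bridge.LocalGlobal97

local notation "Qb" => AlgebraicClosure ℚ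

/-! ### Transport along a group isomorphism -/

section Transport

variable {G H : Type} [Group G] [Group H] (e : G ≃* H)

theorem isTameAt_comap_equiv {U I W : Subgroup H} {τ : H} {q : ℕ} (h : IsTameAt U I q W τ) :
    IsTameAt (U.comap e.toMonoidHom) (I.comap e.toMonoidHom) q (W.comap e.toMonoidHom)
      (e.symm τ) where
  le := Subgroup.comap_mono h.le
  mem_mul := by
    intro w hw
    obtain ⟨i, hi, u, hu, hiu⟩ := h.mem_mul (e w) hw
    refine ⟨e.symm i, ?_, e.symm u, ?_, ?_⟩
    · show e (e.symm i) ∈ I
      rw [e.apply_symm_apply]; exact hi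
    · show e (e.symm u) ∈ U
      rw [e.apply_symm_apply]; exact hu
    · apply e.injective
      rw [map_mul, e.apply_symm_apply, e.apply_symm_apply]; exact hiu
  pow_mem := by
    intro w hw
    obtain ⟨m, hm⟩ := h.pow_mem (e w) hw
    refine ⟨m, ?_⟩
    show e (w ^ q ^ m) ∈ U
    rw [map_pow]; exact hm
  tau_mem := by
    show e (e.symm τ) ∈ I
    rw [e.apply_symm_apply]; exact h.tau_mem
  gen := by
    intro i hi
    obtain ⟨n, w, hw, hiw⟩ := h.gen (e i) hi
    refine ⟨n, e.symm w, ?_, ?_⟩
    · show e (e.symm w) ∈ W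
      rw [e.apply_symm_apply]; exact hw
    · apply e.injective
      rw [map_mul, map_pow, e.apply_symm_apply, e.apply_symm_apply]; exact hiw

theorem isTameFrob_comap_equiv {𝓤H : Set (Subgroup H)} {𝓤G : Set (Subgroup G)}
    (h𝓤 : ∀ U ∈ 𝓤G, ∃ U' ∈ 𝓤H, U = U'.comap e.toMonoidHom) {I : Subgroup H} {φ : H} {q : ℕ}
    (h : IsTameFrob 𝓤H I φ q) : IsTameFrob 𝓤G (I.comap e.toMonoidHom) (e.symm φ) q where
  normal := h.normal.comap _
  dense := by
    intro U hU g
    obtain ⟨U', hU', rfl⟩ := h𝓤 U hU
    obtain ⟨n, i, hi, u, hu, hg⟩ := h.dense U' hU' (e g)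
    refine ⟨n, e.symm i, ?_, e.symm u, ?_, ?_⟩
    · show e (e.symm i) ∈ I
      rw [e.apply_symm_apply]; exact hi
    · show e (e.symm u) ∈ U'
      rw [e.apply_symm_apply]; exact hu
    · apply e.injective
      rw [map_mul, map_mul, map_pow, e.apply_symm_apply, e.apply_symm_apply, e.apply_symm_apply]
      exact hg
  tame := by
    intro U hU hUn
    obtain ⟨U', hU', rfl⟩ := h𝓤 U hU
    have hUn' : U'.Normal := by
      have h1 : (U'.comap e.toMonoidHom).map e.toMonoidHom = U' :=
        Subgroup.map_comap_eq_self_of_surjective e.surjective U'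
      rw [← h1]
      exact hUn.map e.toMonoidHom e.surjective
    obtain ⟨W, τ, ht, w, hw, hfr⟩ := h.tame U' hU' hUn'
    refine ⟨W.comap e.toMonoidHom, e.symm τ, isTameAt_comap_equiv e ht, e.symm w, ?_, ?_⟩
    · show e (e.symm w) ∈ W
      rw [e.apply_symm_apply]; exact hw
    · apply e.injective
      rw [map_mul, map_mul, map_inv, map_mul, map_pow, e.apply_symm_apply, e.apply_symm_apply,
        e.apply_symm_apply]
      exact hfr

end Transport

/-! ### The local Galois group at `q` -/

section Local

variable (q : Nat.Primes)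

/-- The inertia subgroup of the local Galois group at `q`: the preimage of the inertia group of
the distinguished place `primeLocalPlace q`. -/
noncomputable def localInertia : Subgroup (primeLocalGaloisGroup q) :=
  ((primeLocalPlace q).inertiaSubgroupIn ℚ).comap (locAt q)

theorem mem_localInertia_iff (i : primeLocalGaloisGroup q) :
    i ∈ localInertia q ↔ locAt q i ∈ (primeLocalPlace q).inertiaSubgroupIn ℚ := Iff.rfl

theorem localInertia_eq_comap :
    localInertia q = ((primeLocalPlace q).inertiaSubgroup ℚ).comap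
      (primeLocalEquivDecomposition q).toMonoidHom := by
  ext i
  rw [mem_localInertia_iff, Subgroup.mem_comap]
  exact (Fermat.Agent.TW.LocalQ.TameFrob96.mem_inertiaSubgroup_iff_coe (primeLocalPlace q)
    (primeLocalEquivDecomposition q i)).symm

/-- There is an element of the local group mapping to a Frobenius element at the distinguished
place. -/
theorem exists_local_frobenius :
    ∃ φ : primeLocalGaloisGroup q, (primeLocalPlace q).IsFrobeniusAt (locAt q φ) (q : ℕ) := by
  obtain ⟨σ, hσ⟩ := Fermat.Agent.ES.FROB.FrobFacts12.exists_isFrobeniusAt_of q q.2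
    (primeLocalPlace q) (Fermat.Agent.TW.OrdLocal.PadicPlace97.primeLocalPlace_liesOverPrime q)
  obtain ⟨φ, rfl⟩ := exists_primeLocalToGlobal_eq q hσ.mem_decompositionSubgroup
  exact ⟨φ, hσ⟩

/-- **The tame structure of the local Galois group at `q`**, for the level topology induced from
`G_ℚ`. -/
theorem isTameFrob_local {φ : primeLocalGaloisGroup q}
    (hφ : (primeLocalPlace q).IsFrobeniusAt (locAt q φ) (q : ℕ)) :
    IsTameFrob (pullSets (locAt q)) (localInertia q) φ (q : ℕ) := by
  have hA := Fermat.Agent.TW.OrdLocal.PadicPlace97.primeLocalPlace_liesOverPrime q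
  have h := Fermat.Agent.TW.LocalQ.TameFrob96.isTameFrob_decomposition q.2 hA hφ
  have h𝓤 : ∀ U ∈ pullSets (locAt q),
      ∃ U' ∈ pullSets ((primeLocalPlace q).decompositionSubgroup ℚ).subtype,
        U = U'.comap (primeLocalEquivDecomposition q).toMonoidHom := by
    rintro _ ⟨F, hF, rfl⟩
    exact ⟨_, ⟨F, hF, rfl⟩, rfl⟩
  have h2 := isTameFrob_comap_equiv (primeLocalEquivDecomposition q) h𝓤 h
  rw [← localInertia_eq_comap] at h2
  have e : (primeLocalEquivDecomposition q).symm
      (⟨locAt q φ, hφ.mem_decompositionSubgroup⟩ :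
        ↥((primeLocalPlace q).decompositionSubgroup ℚ)) = φ := by
    apply (primeLocalEquivDecomposition q).injective
    rw [MulEquiv.apply_symm_apply]
    rfl
  rw [e] at h2
  exact h2

end Local

end Fermat.Agent.TW.LocalQ.TameLocal96
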