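/-
Programme TW (S56), WP5b (helper96, backup assembly): the local bound at a Taylor–Wiles prime,

  `localBoundTW : Contract52.LocalBoundTW p ρbar q`

i.e. `dim H¹_cont(ℚ_q, ad⁰ρbar) ≤ h⁰(ℚ_q, ad⁰ρbar) + [k : 𝔽_p]` for `q ≡ 1 mod p`, `ρbar` unramified
at `q` with distinct Frobenius eigenvalues.  Inputs: helper61's abstract tame count
`TamePrime61.finrank_levelH1_le`, the tame structure `TameLocal96.isTameFrob_local` of the local
Galois group, and the linear algebra count `dim_{𝔽_p} ker(Ad ρbar(φ) - 1 | ad⁰) ≤ [k : 𝔽_p]`.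
-/
import Mathlib
import Fermat.Agent.TW.LocQ.TamePrime61
import Fermat.Agent.TW.LocalQ.TameLocal96

set_option autoImplicit false

open Module Polynomial CategoryTheory groupCohomology ExtCitation

namespace Fermat.Agent.TW.LocalQ.TWBound96

/-! ### Linear algebra -/

section LinAlg

variable {k V : Type} [Field k] [AddCommGroup V] [Module k V]

/-- A trace-zero endomorphism commuting with `g = diag(α, β)` (`α ≠ β`) is determined by its
`(0,0)` entry. -/
theorem eq_zero_of_commute_of_trace (b : Basis (Fin 2) k V) {g X : Module.End k V} {α β : k}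
    (hαβ : α ≠ β) (h0 : g (b 0) = α • b 0) (h1 : g (b 1) = β • b 1) (hcomm : g * X = X * g)
    (htr : LinearMap.trace k V X = 0) (h00 : LinearMap.toMatrix b b X 0 0 = 0) : X = 0 := by
  set M := LinearMap.toMatrix b b X with hM
  set Gm := LinearMap.toMatrix b b g with hGm
  have hG : Gm = !![α, 0; 0, β] := by
    ext i j
    rw [hGm, LinearMap.toMatrix_apply]
    fin_cases i <;> fin_cases j <;> simp [h0, h1]
  have hMG : Gm * M = M * Gm := by
    rw [hGm, hM, ← LinearMap.toMatrix_mul, ← LinearMap.toMatrix_mul, hcomm]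
  have h01 : M 0 1 = 0 := by
    have := congrFun (congrFun hMG 0) 1
    rw [hG] at this
    simp [Matrix.mul_apply, Fin.sum_univ_two] at this
    have h2 : (α - β) * M 0 1 = 0 := by linear_combination this
    rcases mul_eq_zero.1 h2 with h | h
    · exact absurd (sub_eq_zero.1 h) hαβ
    · exact h
  have h10 : M 1 0 = 0 := by
    have := congrFun (congrFun hMG 1) 0
    rw [hG] at this
    simp [Matrix.mul_apply, Fin.sum_univ_two] at this
    have h2 : (β - α) * M 1 0 = 0 := by linear_combination this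
    rcases mul_eq_zero.1 h2 with h | h
    · exact absurd (sub_eq_zero.1 h).symm hαβ
    · exact h
  have h11 : M 1 1 = 0 := by
    rw [LinearMap.trace_eq_matrix_trace k b, Matrix.trace_fin_two, ← hM, h00, zero_add] at htr
    exact htr
  have hM0 : M = 0 := by
    ext i j
    fin_cases i <;> fin_cases j
    · exact h00
    · exact h01
    · exact h10
    · exact h11
  exact (LinearMap.toMatrix b b).injective (by rw [← hM, hM0, map_zero])

/-- An eigenbasis for an endomorphism of a plane with split characteristic polynomial with distinct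
roots. -/
theorem exists_eigenbasis [Module.Finite k V] (hV : finrank k V = 2) {g : Module.End k V}
    {α β : k} (hαβ : α ≠ β) (hchar : LinearMap.charpoly g = (X - C α) * (X - C β)) :
    ∃ b : Basis (Fin 2) k V, g (b 0) = α • b 0 ∧ g (b 1) = β • b 1 := by
  have hα : g.HasEigenvalue α := by
    rw [Module.End.hasEigenvalue_iff_isRoot_charpoly, hchar]
    simp
  have hβ : g.HasEigenvalue β := by
    rw [Module.End.hasEigenvalue_iff_isRoot_charpoly, hchar]
    simp
  obtain ⟨v₁, hv₁⟩ := hα.exists_hasEigenvector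
  obtain ⟨v₂, hv₂⟩ := hβ.exists_hasEigenvector
  have hinj : Function.Injective ![α, β] := by
    intro i j hij
    fin_cases i <;> fin_cases j <;> simp_all
  have hli : LinearIndependent k ![v₁, v₂] := by
    apply Module.End.eigenvectors_linearIndependent' g ![α, β] hinj
    intro i
    fin_cases i
    · exact hv₁
    · exact hv₂
  let b := basisOfLinearIndependentOfCardEqFinrank hli (by rw [hV]; rfl)
  have hb : ⇑b = ![v₁, v₂] := coe_basisOfLinearIndependentOfCardEqFinrank hli _
  refine ⟨b, ?_, ?_⟩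
  · rw [hb]
    exact hv₁.apply_eq_smul
  · rw [hb]
    exact hv₂.apply_eq_smul

end LinAlg

/-! ### The fixed points of Frobenius on `ad⁰` -/

section Count

open Fermat.Agent.TW.Spec.Defs52 Fermat.Agent.TW.Spec.Contract52
open Fermat.Agent.TW.Cocycle

variable (p : ℕ) [Fact p.Prime] {k : Type} [Field k] [Algebra (ZMod p) k]
  (ρbar : ResidualGaloisRep k)

/-- The `(0,0)` matrix entry, as an `𝔽_p`-linear map `ad⁰ → k`. -/
noncomputable def entryMap (b : Basis (Fin 2) k ρbar.V) : (ad0 p ρbar) →ₗ[ZMod p] k where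
  toFun m := LinearMap.toMatrix b b (ad0ToEnd p ρbar m) 0 0
  map_add' m m' := by
    rw [Contract95.ad0ToEnd_add, map_add, Matrix.add_apply]
  map_smul' c m := by
    have h : ad0ToEnd p ρbar (c • m) = algebraMap (ZMod p) k c • ad0ToEnd p ρbar m := rfl
    rw [h, map_smul, Matrix.smul_apply, RingHom.id_apply, smul_eq_mul, Algebra.smul_def]

theorem entryMap_apply (b : Basis (Fin 2) k ρbar.V) (m : ad0 p ρbar) :
    entryMap p ρbar b m = LinearMap.toMatrix b b (ad0ToEnd p ρbar m) 0 0 := rfl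

/-- A subspace of `ad⁰` fixed by an element with distinct eigenvalues has `𝔽_p`-dimension at most
`[k : 𝔽_p]`. -/
theorem finrank_fixed_le [Finite k] {g : GQ} {α β : k} (hαβ : α ≠ β)
    (hchar : LinearMap.charpoly (ρbar.ρ g) = (X - C α) * (X - C β))
    (S : Submodule (ZMod p) (ad0 p ρbar)) (hS : ∀ m ∈ S, (ad0 p ρbar).ρ g m = m) :
    finrank (ZMod p) S ≤ finrank (ZMod p) k := by
  obtain ⟨b, hb0, hb1⟩ := exists_eigenbasis ρbar.finrank_eq hαβ hchar
  have : Module.Finite (ZMod p) k := Module.Finite.of_finite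
  apply LinearMap.finrank_le_finrank_of_injective (f := (entryMap p ρbar b).comp S.subtype)
  refine (injective_iff_map_eq_zero _).2 fun m hm => ?_
  have hm0 : LinearMap.toMatrix b b (ad0ToEnd p ρbar (m : ad0 p ρbar)) 0 0 = 0 := hm
  have hfix := congrArg (ad0ToEnd p ρbar) (hS m m.2)
  rw [ad0_ρ_apply] at hfix
  have hinv : ρbar.ρ g⁻¹ * ρbar.ρ g = 1 := by rw [← map_mul, inv_mul_cancel, map_one]
  have hcomm : ρbar.ρ g * ad0ToEnd p ρbar (m : ad0 p ρbar) =
      ad0ToEnd p ρbar (m : ad0 p ρbar) * ρbar.ρ g := by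
    calc ρbar.ρ g * ad0ToEnd p ρbar (m : ad0 p ρbar)
        = ρbar.ρ g * ad0ToEnd p ρbar (m : ad0 p ρbar) * (ρbar.ρ g⁻¹ * ρbar.ρ g) := by
          rw [hinv, mul_one]
      _ = (ρbar.ρ g * ad0ToEnd p ρbar (m : ad0 p ρbar) * ρbar.ρ g⁻¹) * ρbar.ρ g := by
          simp only [mul_assoc]
      _ = ad0ToEnd p ρbar (m : ad0 p ρbar) * ρbar.ρ g := by rw [hfix]
  have htr : LinearMap.trace k ρbar.V (ad0ToEnd p ρbar (m : ad0 p ρbar)) = 0 :=
    (mem_End0_iff ρbar _).1 (show End0 ρbar from (m : ad0 p ρbar)).2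
  have hX := eq_zero_of_commute_of_trace b hαβ hb0 hb1 hcomm htr hm0
  apply Subtype.ext
  apply Contract95.ad0ToEnd_injective
  rw [hX]
  rfl

end Count

/-! ### The contract -/

section Contract

open Fermat.Agent.TW.Spec.Defs52 Fermat.Agent.TW.Spec.Contract52
open Fermat.Agent.PT.PRO.LevelCoh28 Fermat.Agent.PT.BR.LevelBridge13
open Fermat.Agent.TW.LocQ.UnramBound61 Fermat.Agent.TW.LocQ.TameDef61
open Fermat.Agent.TW.LocQ.TamePrime61
open Fermat.Agent.TW.LocalQ.TameLocal96 Fermat.Agent.TW.LocalQ.UnipBound96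

variable (p : ℕ) [Fact p.Prime] {k : Type} [Field k] [Algebra (ZMod p) k]
  (ρbar : ResidualGaloisRep k)

/-- The Prelude's continuous classes are helper61's level classes for the pulled-back levels. -/
theorem H1cAt_eq_levelH1 (q : Nat.Primes) (M : Rep.{0} (ZMod p) GQ) :
    H1cAt q M = levelH1 (pullSets (locAt q)) (resAt q M) (isLevelBasis_pullSets (locAt q)) := by
  ext x
  rw [mem_continuousH1_iff, mem_levelH1_iff]
  constructor
  · rintro ⟨c, hc, rfl⟩
    exact ⟨c, (isLevel₁_pullSets_iff (locAt q) _).2 hc, rfl⟩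
  · rintro ⟨c, hc, rfl⟩
    exact ⟨c, (isLevel₁_pullSets_iff (locAt q) _).1 hc, rfl⟩

theorem natCast_eq_one_of_dvd_sub_one {q : ℕ} (hq : q.Prime) (h : p ∣ q - 1) :
    ((q : ℕ) : ZMod p) = 1 := by
  have h1 : q = (q - 1) + 1 := (Nat.sub_add_cancel hq.one_lt.le).symm
  rw [h1, Nat.cast_add, (ZMod.natCast_eq_zero_iff _ _).2 h, zero_add, Nat.cast_one]

/-- **WP5b.** The local bound at a Taylor–Wiles prime. -/
theorem localBoundTW [Finite k] (q : Nat.Primes) (hur : ρbar.IsUnramifiedAt (q : ℕ))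
    (hq1 : p ∣ (q : ℕ) - 1) (hdist : DistinctFrobEigenvalues ρbar (q : ℕ)) :
    LocalBoundTW p ρbar q := by
  have hA := Fermat.Agent.TW.OrdLocal.PadicPlace97.primeLocalPlace_liesOverPrime q
  obtain ⟨φ, hφ⟩ := exists_local_frobenius q
  have htf := isTameFrob_local q hφ
  have h𝓤 : IsLevelBasis (pullSets (locAt q)) := isLevelBasis_pullSets (locAt q)
  have hfin : Module.Finite (ZMod p) (ad0 p ρbar) := moduleFinite_ad0 p ρbar
  have hfinA : Module.Finite (ZMod p) (resAt q (ad0 p ρbar)) := hfin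
  have hdisc : IsDiscrete (pullSets (locAt q)) (resAt q (ad0 p ρbar)) :=
    isDiscrete_pullSets (ad0 p ρbar) (locAt q) (smooth_ad0 p ρbar)
  have hq1' : (((q : ℕ) : ℕ) : ZMod p) = 1 := natCast_eq_one_of_dvd_sub_one p q.2 hq1
  have hqk : (((q : ℕ) : ℕ) : ZMod p) ≠ 0 := by rw [hq1']; exact one_ne_zero
  have hI : ∀ i ∈ localInertia q, ∀ a : resAt q (ad0 p ρbar),
      (resAt q (ad0 p ρbar)).ρ i a = a := fun i hi a =>
    ad0_ρ_eq_self p ρbar (hur (primeLocalPlace q) hA (locAt q i) hi) a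
  obtain ⟨hfd, hle⟩ := finrank_levelH1_le h𝓤 hdisc htf hqk hI
  obtain ⟨α, β, hαβ, hchar⟩ := hdist (primeLocalPlace q) hA (locAt q φ) hφ
  have hEig : finrank (ZMod p) (frobEigen (resAt q (ad0 p ρbar)) φ (q : ℕ)) ≤
      finrank (ZMod p) k := by
    apply finrank_fixed_le p ρbar hαβ hchar
    intro m hm
    have h1 := (mem_frobEigen (A := resAt q (ad0 p ρbar))).1 hm
    rw [hq1', one_smul] at h1
    exact h1
  rw [LocalBoundTW, H1cAt_eq_levelH1]
  exact ⟨hfd, hle.trans (Nat.add_le_add_left hEig _)⟩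

/-- The field `twLocal` of `Glue52b.DeliverablesB`, from the hypotheses `hpSmin`, `hmin` of S56. -/
theorem twLocal_field [Finite k] (Smin : Finset ℕ) (hpSmin : p ∈ Smin)
    (hmin : ∀ q : ℕ, q.Prime → q ≠ p → (q ∈ Smin ↔ ¬ ρbar.IsUnramifiedAt q)) :
    ∀ q : Nat.Primes, (q : ℕ) ∉ Smin → p ∣ (q : ℕ) - 1 →
      DistinctFrobEigenvalues ρbar (q : ℕ) → LocalBoundTW p ρbar q := by
  intro q hq hq1 hdist
  have hqp : (q : ℕ) ≠ p := fun h => hq (h ▸ hpSmin)
  have hur : ρbar.IsUnramifiedAt (q : ℕ) := by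
    by_contra hn
    exact hq ((hmin q q.2 hqp).2 hn)
  exact localBoundTW p ρbar q hur hq1 hdist

end Contract

end Fermat.Agent.TW.LocalQ.TWBound96
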